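import Fermat.Agent.BadPrime.Mazur.Defs
import Fermat.Agent.EichlerShimura.KummerIso
import Fermat.Agent.EichlerShimura.CuspBasis
import Fermat.Agent.Periods.Integral

/-!
# Polynomials vanishing on cusp forms vanish on torsion points

A polynomial in good Hecke operators vanishing on `S₂(Γ₀(M))` has zero integral matrix on the
cuspidal homomorphisms, hence kills the torsion of `J₀(M)`.
-/

set_option autoImplicit false

noncomputable section

open CongruenceSubgroup ModularCurve MvPolynomial

namespace Fermat.Agent.BadPrime.Mazur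

open Fermat.Agent.EichlerShimura

variable {M N : ℕ} [NeZero M] (h : M ∣ N)

variable (M N) in
/-- A polynomial in the good Hecke operators of level `N`, on `J₀(M)`. -/
def evalJLow : MvPolynomial (GoodPrimes N) ℤ →+* Module.End ℤ (JZero M) :=
  (heckeEvalBar (EichlerShimura.heckeOperatorsCommuteBar M)).comp
    (rename (Subtype.val : GoodPrimes N → Nat.Primes)).toRingHom

theorem evalJLow_X (ℓ : GoodPrimes N) : evalJLow M N (X ℓ) = heckeOperatorBar M ℓ.1 := by
  show heckeEvalBar _ (rename Subtype.val (X ℓ)) = _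
  rw [rename_X]
  exact heckeEvalBar_heckeGen _ ℓ.1

/-- The values of the period homomorphism of a pair on the chosen generators. -/
def periodCoord (x : CuspForm (Gamma0 M) 2 × CuspForm (Gamma0 M) 2) (i : Fin (cuspRank M)) : ℂ :=
  periodHomPair M x (Additive.ofMul (cuspGen M i))

theorem isCuspidalHom_periodHomPair (x : CuspForm (Gamma0 M) 2 × CuspForm (Gamma0 M) 2) :
    Periods.IsCuspidalHom (periodHomPair M x) := by
  have hmem : periodHomPair M x ∈ Period.parabolicHoms ℂ (Gamma0 M) ℂ := by
    rw [← Periods.coe_periodEquiv]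
    exact (Periods.periodEquiv M x).2
  rw [Periods.parabolicHoms_eq_cuspidalHoms] at hmem
  exact hmem

theorem exists_periodCoord_eq (v : Fin (cuspRank M) → ℂ) : ∃ x, periodCoord x = v := by
  have hmem : ofCoords M ℂ v ∈ Period.parabolicHoms ℂ (Gamma0 M) ℂ := by
    rw [Periods.parabolicHoms_eq_cuspidalHoms]
    exact isCuspidalHom_ofCoords M ℂ v
  refine ⟨(Periods.periodEquiv M).symm ⟨_, hmem⟩, funext fun i => ?_⟩
  rw [periodCoord, ← Periods.coe_periodEquiv, LinearEquiv.apply_symm_apply]
  simp [ofCoords_apply, cuspDual_cuspGen]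

/-- `H` is the matrix of `t` on the torsion of `J₀(M)` and on the periods. -/
def HasMatrix (e : torsionPts M ≃+ Periods.cuspidalHoms ℤ (Gamma0 M) QZ)
    (t : MvPolynomial (GoodPrimes N) ℤ) (H : Matrix (Fin (cuspRank M)) (Fin (cuspRank M)) ℤ) :
    Prop :=
  (∀ x i, (e (torsionMap (evalJLow M N t).toAddMonoidHom x) : Additive (Gamma0 M) →+ QZ)
      (Additive.ofMul (cuspGen M i)) =
    ∑ j, H i j • (e x : Additive (Gamma0 M) →+ QZ) (Additive.ofMul (cuspGen M j))) ∧
  ∀ f g i, periodCoord ((evalS h t : Module.End ℂ (CuspForm (Gamma0 M) 2)) f,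
      (evalS h t : Module.End ℂ (CuspForm (Gamma0 M) 2)) g) i =
    ∑ j, (H i j : ℂ) * periodCoord (f, g) j

theorem exists_hasMatrix (e : torsionPts M ≃+ Periods.cuspidalHoms ℤ (Gamma0 M) QZ)
    (hT : ∀ (ℓ : Nat.Primes), ¬ (ℓ : ℕ) ∣ M → ∀ x,
      (e (torsionMap (heckeOperatorBar M ℓ).toAddMonoidHom x) : Additive (Gamma0 M) →+ QZ) =
        Periods.heckeHom ℤ QZ ℓ.2 (e x : Additive (Gamma0 M) →+ QZ))
    (t : MvPolynomial (GoodPrimes N) ℤ) : ∃ H, HasMatrix h e t H := by
  classical
  induction t using MvPolynomial.induction_on with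
  | C c =>
    refine ⟨c • 1, fun x i => ?_, fun f g i => ?_⟩
    · have : torsionMap (evalJLow M N (C c)).toAddMonoidHom x = c • x := Subtype.ext (by
        simp [coe_torsionMap])
      rw [this, map_zsmul]
      simp [Matrix.one_apply, ite_smul, mul_ite]
    · have hs : (evalS h (C c) : Module.End ℂ (CuspForm (Gamma0 M) 2)) = c • 1 := by
        simp [evalS]
      have e2 : ((c • f, c • g) : CuspForm (Gamma0 M) 2 × CuspForm (Gamma0 M) 2) = c • (f, g) := rfl
      rw [hs, LinearMap.smul_apply, LinearMap.smul_apply, Module.End.one_apply,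
        Module.End.one_apply, e2]
      rw [periodCoord, map_zsmul]
      simp [periodCoord, Matrix.one_apply]
  | add a b ha hb =>
    obtain ⟨A, hA⟩ := ha
    obtain ⟨B, hB⟩ := hb
    refine ⟨A + B, fun x i => ?_, fun f g i => ?_⟩
    · have : torsionMap (evalJLow M N (a + b)).toAddMonoidHom x =
          torsionMap (evalJLow M N a).toAddMonoidHom x +
            torsionMap (evalJLow M N b).toAddMonoidHom x := Subtype.ext (by
        simp [coe_torsionMap, map_add])
      rw [this, map_add, Submodule.coe_add, AddMonoidHom.add_apply, hA.1, hB.1]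
      simp [add_smul, Finset.sum_add_distrib]
    · have hs : (evalS h (a + b) : Module.End ℂ (CuspForm (Gamma0 M) 2)) =
          (evalS h a : Module.End ℂ (CuspForm (Gamma0 M) 2)) + evalS h b := by
        rw [map_add]; rfl
      have e2 : ∀ u v u' v' : CuspForm (Gamma0 M) 2, periodCoord (u + u', v + v') i =
          periodCoord (u, v) i + periodCoord (u', v') i := fun u v u' v' => by
        rw [periodCoord, ← Prod.mk_add_mk, map_add]; rfl
      rw [hs, LinearMap.add_apply, LinearMap.add_apply, e2, hA.2, hB.2]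
      simp [add_mul, Finset.sum_add_distrib]
  | mul_X a ℓ ha =>
    obtain ⟨A, hA⟩ := ha
    have hℓ : ¬ ((ℓ.1 : Nat.Primes) : ℕ) ∣ M := fun hd => ℓ.2 (hd.trans h)
    refine ⟨A * heckeMatrix M ℓ.1, fun x i => ?_, fun f g i => ?_⟩
    · have : torsionMap (evalJLow M N (a * X ℓ)).toAddMonoidHom x =
          torsionMap (evalJLow M N a).toAddMonoidHom
            (torsionMap (heckeOperatorBar M ℓ.1).toAddMonoidHom x) := Subtype.ext (by
        simp [coe_torsionMap, map_mul, evalJLow_X])
      rw [this, hA.1]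
      simp only [hT ℓ.1 hℓ x, heckeHom_apply_cuspGen M ℓ.1 (e x).2, Finset.smul_sum, smul_smul,
        Matrix.mul_apply, Finset.sum_smul]
      exact Finset.sum_comm
    · have hs : (evalS h (a * X ℓ) : Module.End ℂ (CuspForm (Gamma0 M) 2)) =
          (evalS h a : Module.End ℂ (CuspForm (Gamma0 M) 2)) *
            CuspForm.heckeTLin 2 ℓ.1.2 hℓ := by
        rw [map_mul, evalS_X]; rfl
      have hT' : ∀ j, periodCoord (CuspForm.heckeTLin 2 ℓ.1.2 hℓ f,
          CuspForm.heckeTLin 2 ℓ.1.2 hℓ g) j =
            ∑ k, (heckeMatrix M ℓ.1 j k : ℂ) * periodCoord (f, g) k := fun j => by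
        rw [periodCoord, ← Periods.heckeHom_periodHomPair_T ℓ.1.2 hℓ,
          heckeHom_apply_cuspGen M ℓ.1 (isCuspidalHom_periodHomPair _)]
        simp [periodCoord, zsmul_eq_mul]
      rw [hs, Module.End.mul_apply, Module.End.mul_apply, hA.2]
      simp only [hT', Finset.mul_sum, Matrix.mul_apply, Finset.sum_mul, Int.cast_sum, Int.cast_mul,
        mul_assoc]
      exact Finset.sum_comm

/-- **A polynomial vanishing on cusp forms of level `M` kills the torsion of `J₀(M)`.** -/
theorem evalJLow_eq_zero_of_evalS {t : MvPolynomial (GoodPrimes N) ℤ} (ht : evalS h t = 0)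
    {x : JZero M} (hx : IsOfFinAddOrder x) : evalJLow M N t x = 0 := by
  classical
  obtain ⟨e, hT, -, -⟩ := EichlerShimura.hasKummerIso M
  obtain ⟨H, h1, h2⟩ := exists_hasMatrix h e hT t
  have hH : H = 0 := by
    ext i j
    obtain ⟨⟨f, g⟩, hfg⟩ := exists_periodCoord_eq (M := M) (Pi.single j 1)
    have h3 := h2 f g i
    rw [ht] at h3
    simp only [ZeroMemClass.coe_zero, LinearMap.zero_apply, hfg] at h3
    have h4 : periodCoord ((0, 0) : CuspForm (Gamma0 M) 2 × CuspForm (Gamma0 M) 2) i = 0 := by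
      rw [periodCoord, Prod.mk_zero_zero, map_zero]; rfl
    rw [h4, Finset.sum_eq_single j (fun b _ hb => by simp [hb]) (by simp)] at h3
    simpa using h3.symm
  have h5 : e (torsionMap (evalJLow M N t).toAddMonoidHom ⟨x, hx⟩) = 0 := by
    apply (cuspCoords M QZ).injective
    funext i
    rw [cuspCoords_apply, h1, hH, map_zero]
    simp
  exact congrArg Subtype.val ((map_eq_zero_iff e e.injective).1 h5)

end Fermat.Agent.BadPrime.Mazur
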