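import Fermat.Agent.Reduction.Galois
import Fermat.Agent.Reduction.DivisorSpec
import Fermat.Agent.Reduction.ModularData
import Fermat.Agent.Reduction.WeakRiemann
import Fermat.Agent.EichlerShimura.UniqueEffective

/-!
# Classes of the special fibre fixed by a power of Frobenius form a finite set

A class fixed by an automorphism of the constants has a fixed effective representative of bounded
degree after subtracting multiples of a fixed place, and there are finitely many fixed places.
-/

set_option autoImplicit false
set_option synthInstance.maxHeartbeats 400000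
set_option linter.unusedSectionVars false

noncomputable section

open ModularCurve AlgebraicCurve

namespace Fermat.Agent.BadPrime.Mazur.Local

open Fermat.Agent.Curve Fermat.Agent.Reduction

variable {k : Type*} [Field k] [IsAlgClosed k] (M : ℕ) [NeZero M]

theorem residueGalois_smul_jRes (α : k ≃+* k) : residueGalois M α • jRes k M = jRes k M :=
  Subtype.ext (by rw [coe_residueGalois_smul]; exact coeffMap_jqModC _)

/-- A bijection fixing a finite set fixes it pointwise after a power. -/
theorem smul_pow_factorial {G X : Type*} [Group G] [MulAction G X] (g : G) {T : Finset X}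
    (hT : ∀ x ∈ T, g • x ∈ T) {d : ℕ} (hd : T.card ≤ d) {x : X} (hx : x ∈ T) :
    g ^ d.factorial • x = x := by
  classical
  have hfin : Function.Injective fun y : T => (⟨g • (y : X), hT _ y.2⟩ : T) := fun a b h =>
    Subtype.ext (MulAction.injective g (congrArg Subtype.val h))
  let σ : Equiv.Perm T := Equiv.ofBijective _ ⟨hfin, Finite.injective_iff_surjective.1 hfin⟩
  have hσ : ∀ (n : ℕ) (y : T), ((σ ^ n) y : X) = g ^ n • (y : X) := by
    intro n
    induction n with
    | zero => intro y; simp
    | succ n ih =>
      intro y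
      rw [pow_succ', Equiv.Perm.mul_apply, pow_succ', mul_smul, ← ih y]
      rfl
  have h1 : σ ^ d.factorial = 1 := by
    obtain ⟨e, he⟩ := Nat.factorial_dvd_factorial hd
    rw [he, pow_mul, show σ ^ T.card.factorial = 1 from ?_, one_pow]
    have := pow_card_eq_one (x := σ)
    rwa [Fintype.card_perm, Fintype.card_coe] at this
  have := hσ d.factorial ⟨x, hx⟩
  rw [h1] at this
  exact this.symm

/-- Places fixed by an automorphism with finitely many fixed constants. -/
theorem finite_fixed_places (α : k ≃+* k) (hα : {a : k | α a = a}.Finite) :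
    {Q : Place k (modularFunctionFieldFullC k M) | residueGalois M α • Q = Q}.Finite := by
  set j := jRes k M
  refine ((finite_ord_ne_zero (K := k) j).union (hα.biUnion fun a _ =>
    finite_ord_ne_zero (K := k) (j - algebraMap k _ a))).subset fun Q hQ => ?_
  by_cases hj : Q.ord j = 0
  · refine Or.inr ?_
    have hmem : j ∈ Q.toValuationSubring :=
      (Modular.placeOrd_nonneg_iff Q (fun h => transcendental_jRes M k (by rw [show jRes k M = 0 from h]; exact isAlgebraic_zero))).1
        hj.ge
    rcases evalAt_spec Q hmem with h | h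
    · refine absurd ?_ (transcendental_jRes M k)
      rw [show jRes k M = _ from sub_eq_zero.1 h]
      exact isAlgebraic_algebraMap _
    set c := evalAt Q j
    have h' : 0 < Q.ord (j - algebraMap k (modularFunctionFieldFullC k M) (α c)) := by
      have := SemilinearAut.ord_smul (residueGalois M α) Q
        (j - algebraMap k (modularFunctionFieldFullC k M) c)
      rw [hQ, smul_sub, residueGalois_smul_jRes, SemilinearAut.smul_algebraMap] at this
      rw [show (SemilinearAut.baseAut (residueGalois M α)) c = α c from rfl] at this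
      rw [this]
      exact h
    have hcα : α c = c := by
      by_contra hne
      have hd : algebraMap k (modularFunctionFieldFullC k M) (c - α c) ≠ 0 :=
        (map_ne_zero _).2 (sub_ne_zero.2 (Ne.symm hne))
      have hsum : (j - algebraMap k (modularFunctionFieldFullC k M) (α c)) +
          -(j - algebraMap k (modularFunctionFieldFullC k M) c) =
            algebraMap k (modularFunctionFieldFullC k M) (c - α c) := by
        rw [map_sub]; ring
      have h1 := EichlerShimura.place_min_ord_le_add Q
        (f := j - algebraMap k (modularFunctionFieldFullC k M) (α c))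
        (g := -(j - algebraMap k (modularFunctionFieldFullC k M) c))
        (fun h0 => by simp [h0] at h') (neg_ne_zero.2 fun h0 => by simp [h0] at h)
        (by rw [hsum]; exact hd)
      rw [hsum, Curve.ord_algebraMap, Curve.ord_neg] at h1
      omega
    exact Set.mem_biUnion (show c ∈ {a : k | α a = a} from hcα) h.ne'
  · exact Or.inl hj

/-- **Classes fixed by a power of an automorphism are finite in number.** -/
theorem finite_fixed_classes (φ : k ≃+* k) (hφ : ∀ d : ℕ, 0 < d → {a : k | (φ ^ d) a = a}.Finite)
    {d : ℕ} (hd : 0 < d) :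
    {z : Pic0 k (modularFunctionFieldFullC k M) | residueGalois M (φ ^ d) • z = z}.Finite := by
  classical
  set F := modularFunctionFieldFullC k M
  set α := φ ^ d with hαdef
  obtain ⟨Q₀, hQ₀⟩ := exists_place_ord_neg (K := k) (F := F) (transcendental_jRes M k)
  have hpoles : ∀ Q ∈ (finite_ord_ne_zero (K := k) (jRes k M)).toFinset,
      residueGalois M α • Q ∈ (finite_ord_ne_zero (K := k) (jRes k M)).toFinset := by
    intro Q hQ
    rw [Set.Finite.mem_toFinset, Set.mem_setOf_eq] at hQ ⊢
    have := SemilinearAut.ord_smul (residueGalois M α) Q (jRes k M)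
    rw [residueGalois_smul_jRes] at this
    rwa [this]
  set s := (finite_ord_ne_zero (K := k) (jRes k M)).toFinset.card
  set g := residueGalois M (α ^ s.factorial) with hgdef
  have hg : g • Q₀ = Q₀ := by
    rw [hgdef, map_pow]
    exact smul_pow_factorial _ hpoles le_rfl (by simpa using hQ₀.ne)
  obtain ⟨c, hc⟩ := weakRiemann (K := k) (F := F)
  have hα' : {a : k | ((α ^ s.factorial) ^ c.factorial) a = a}.Finite := by
    rw [hαdef, ← pow_mul, ← pow_mul]
    exact hφ _ (Nat.mul_pos hd (Nat.mul_pos (Nat.factorial_pos _) (Nat.factorial_pos _)))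
  set S := (finite_fixed_places M _ hα').toFinset
  have hP : EichlerShimura.HasRationalResidue Q₀ := by
    refine ⟨by rw [deg_eq_one]; exact one_ne_zero, fun f hf h0 => ?_⟩
    exact ⟨_, evalAt_spec Q₀ ((Modular.placeOrd_nonneg_iff Q₀ hf).1 h0.ge)⟩
  let mkc : (S → Fin (c + 1)) → Pic0 k F := fun v =>
    letI E : Divisor k F := ∑ Q : S, Finsupp.single (Q : Place k F) ((v Q : ℕ) : ℤ)
    letI D : Divisor k F := E - Finsupp.single Q₀ (Divisor.degree E)
    if h : D ∈ Divisor.degZero (K := k) (F := F) then Pic0.mk ⟨D, h⟩ else 0
  refine (Set.finite_range mkc).subset fun z hz => ?_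
  obtain ⟨D, rfl⟩ := Pic0.mk_surjective z
  have hzg : g • Pic0.mk D = Pic0.mk D := by
    have hn : ∀ n : ℕ, (residueGalois M α) ^ n • Pic0.mk D = Pic0.mk D := fun n => by
      induction n with
      | zero => simp
      | succ n ih =>
        rw [pow_succ, mul_smul, show residueGalois M α • Pic0.mk D = Pic0.mk D from hz, ih]
    rw [hgdef, map_pow]
    exact hn _
  rw [SemilinearAut.pic0_smul_mk] at hzg
  set D' : Divisor k F := (D : Divisor k F) + Finsupp.single Q₀ (c : ℤ) with hD'
  have hD'deg : Divisor.degree D' = c := by
    rw [hD', map_add, Divisor.degree_single, deg_eq_one, Divisor.mem_degZero.1 D.2]; simp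
  obtain ⟨E₀, hE₀, u, hu, huE⟩ := hc D' hD'deg.ge
  obtain ⟨m, E, hE, hEfix, hED⟩ := EichlerShimura.exists_invariant_effective hP (D := D') (f₀ := u)
    ⟨hu, fun v => by
      have h1 := huE v
      have h2 := hE₀ v
      simp only [Finsupp.sub_apply, Finsupp.coe_zero, Pi.zero_apply] at h1 h2 ⊢
      omega⟩ ({g} : Set (SemilinearAut k F))
    (fun σ hσ => by rw [Set.mem_singleton_iff.1 hσ]; exact hg)
    (fun σ hσ => by
      rw [Set.mem_singleton_iff.1 hσ]
      have h1 : g • D' - D' = g • (D : Divisor k F) - (D : Divisor k F) := by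
        rw [hD', smul_add, SemilinearAut.smul_single, hg]; abel
      rw [h1]
      have h2 := (QuotientAddGroup.eq_iff_sub_mem).1 hzg
      rw [AddSubgroup.mem_addSubgroupOf] at h2
      exact h2)
  have hdegE : Divisor.degree E = (c : ℤ) - m := by
    have := degree_eq_zero_of_isPrincipal hED
    rw [map_sub, map_sub, Divisor.degree_single, deg_eq_one, hD'deg] at this
    push_cast at this
    omega
  have hEle : ∀ Q, E Q ≤ c := fun Q => by
    have := Reduction.apply_le_degree (fun P => one_le_deg P) (fun v => hE v) Q
    omega
  have hcard : E.support.card ≤ c := by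
    have h1 : ((E.support.card : ℕ) : ℤ) ≤ Divisor.degree E := by
      rw [degree_eq_sum, Finset.card_eq_sum_ones]
      push_cast
      refine Finset.sum_le_sum fun Q hQ => ?_
      rw [deg_eq_one, Nat.cast_one, mul_one]
      have := hE Q
      have := Finsupp.mem_support_iff.1 hQ
      omega
    omega
  have hsupp : ∀ Q ∈ E.support, Q ∈ S := fun Q hQ => by
    rw [Set.Finite.mem_toFinset, Set.mem_setOf_eq, map_pow]
    refine smul_pow_factorial g (T := E.support) (fun P hP => ?_) hcard hQ
    rw [Finsupp.mem_support_iff] at hP ⊢
    rwa [← hEfix g rfl, SemilinearAut.divisor_smul_apply_smul]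
  refine ⟨fun Q => ⟨(E Q).toNat, by have := hEle Q; omega⟩, ?_⟩
  have hEsum : (∑ Q : S, Finsupp.single (Q : Place k F) (((E Q).toNat : ℕ) : ℤ)) = E := by
    conv_rhs => rw [← E.sum_single, Finsupp.sum]
    rw [Finset.sum_coe_sort S fun Q => Finsupp.single Q (((E Q).toNat : ℕ) : ℤ)]
    refine (Finset.sum_subset hsupp (fun Q _ hQ => ?_)).symm.trans
      (Finset.sum_congr rfl fun Q _ => by rw [Int.toNat_of_nonneg (hE Q)])
    simp [Finsupp.notMem_support_iff.1 hQ]
  have hmem : E - Finsupp.single Q₀ (Divisor.degree E) ∈ Divisor.degZero (K := k) (F := F) := by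
    rw [Divisor.mem_degZero, map_sub, Divisor.degree_single, deg_eq_one]; simp
  simp only [mkc, hEsum]
  rw [dif_pos hmem]
  refine (QuotientAddGroup.eq_iff_sub_mem).2 ?_
  rw [AddSubgroup.mem_addSubgroupOf]
  show (E - Finsupp.single Q₀ (Divisor.degree E)) - (D : Divisor k F) ∈
    Divisor.principal (K := k) (F := F)
  convert hED using 1
  rw [hdegE, hD', Finsupp.single_sub]
  abel

end Fermat.Agent.BadPrime.Mazur.Local
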