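import Fermat.Agent.BadPrime.Mazur.Local.RedHecke
import Fermat.Agent.BadPrime.Mazur.Local.ResidualFinite
import Fermat.Agent.Reduction.TorsionAux
import Fermat.Agent.EichlerShimura.FiniteLevel
import Fermat.Agent.MordellWeil.DivisibleDescent
import Fermat.Agent.Torsion.Analytic.Abel
import Mathlib.FieldTheory.Perfect
import Mathlib.FieldTheory.Normal.Closure

/-!
# Endomorphisms killing torsion kill the prime-to-`q` torsion of the special fibre

If `T` commutes with Galois and kills the torsion of `J₀(M)`, then `T y` is infinitely divisible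
among points fixed by a power of Frobenius, whose reductions form a finite set; so the reduction of
`T y` is zero as soon as it is a torsion class.
-/

set_option autoImplicit false
set_option synthInstance.maxHeartbeats 400000
set_option maxHeartbeats 800000

noncomputable section

open ModularCurve AlgebraicCurve IsLocalRing

namespace Fermat.Agent.BadPrime.Mazur.Local

open Fermat.Agent.Curve Fermat.Agent.Reduction Fermat.Agent.BadPrime

local notation "Qb" => AlgebraicClosure ℚ
local notation "Γℚ" => (AlgebraicClosure ℚ ≃ₐ[ℚ] AlgebraicClosure ℚ)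

local instance : Algebra.IsAlgebraic ℚ Qb := AlgebraicClosure.isAlgebraic ℚ

/-- `J₀(N)(ℚ̄)` is divisible. -/
theorem exists_nsmul_eq (N : ℕ) [NeZero N] {n : ℕ} (hn : n ≠ 0) (x : JZero N) :
    ∃ y : JZero N, n • y = x := by
  let ι : Qb →ₐ[ℚ] ℂ := IsAlgClosed.lift
  let F' := laurentBaseChange ℂ (modularFunctionFieldFull N)
  have : Curve.IsFunctionField1 ℂ F' :=
    EichlerShimura.isFunctionField1_laurentBaseChange (modularFunctionFieldFull N) ι
  have hcard := Torsion.Analytic.natCard_torsion_complex F' n hn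
  have : Finite (Pic0.torsion ℂ F' n) :=
    Nat.finite_of_card_ne_zero (by rw [hcard]; exact pow_ne_zero _ hn)
  refine (MordellWeil.divisible_and_finite_laurentBaseChange (n := n) (modularFunctionFieldFull N) ι
    (Torsion.Analytic.exists_nsmul_eq_complex F' n hn) ?_).1 x
  refine (Set.toFinite (Set.range fun t : Pic0.torsion ℂ F' n => (t : Pic0 ℂ F'))).subset
    fun z hz => ?_
  exact ⟨⟨z, Pic0.mem_torsion.2 ((natCast_zsmul z n).trans hz)⟩, rfl⟩

variable {q : ℕ} [Fact q.Prime] {M : ℕ} [NeZero M] (hqM : ¬ q ∣ M) {A : ValuationSubring Qb}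
  (hA : A.LiesOverPrime q)

include hqM hA in
/-- **The place reduction at level `M`.** -/
theorem exists_gaussPlaceMap (hN : (q = 2 → 3 ∣ M) ∧ (q = 3 → 2 ∣ M)) :
    ∃ r : Place Qb (modularFunctionFieldBar M) →
        Place (ResidueField A) (modularFunctionFieldFullC (ResidueField A) M),
      IsPlaceReductionModL A M r ∧ IsGaussPlaceMap M A r ∧ Function.Surjective r := by
  classical
  have := EC.isAlgClosed_residueField A
  obtain ⟨r, hdeg, hr⟩ := (gaussDataX0 M hqM A hA).exists_placeCompat
    (genusFF_le_modL M hqM A hA hN)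
  refine ⟨r, isPlaceReductionAlong_of_modGraph hdeg hr, fun f g h hg => hr f g h hg, fun Q => ?_⟩
  by_contra hQ
  obtain ⟨t, ht0, ht⟩ := exists_uniformizer Q
  obtain ⟨f, hf⟩ := (gaussDataX0 M hqM A hA).exists_lift t
  have h := hr f t hf ht0 (divisorOf f) (fun P => divisorOf_apply f P) Q
  rw [Finsupp.mapDomain_notin_range _ _ (fun ⟨P, hP⟩ => hQ ⟨P, hP⟩), ht] at h
  exact zero_ne_one h

include hqM hA in
theorem reductionModL_mk_eq {r : Place Qb (modularFunctionFieldBar M) →
      Place (ResidueField A) (modularFunctionFieldFullC (ResidueField A) M)}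
    (hr : IsPlaceReductionModL A M r)
    (D : Divisor.degZero (K := Qb) (F := modularFunctionFieldBar M)) :
    reductionModL A M (Pic0.mk D) = Pic0.mk (reductionDegZeroAlong r hr.1 D) :=
  reductionAlong_mk_of_isPlaceReduction (fun P => one_le_deg P) weakRiemann hr
    (principalGeneratedByIntegral M hqM A hA) D

theorem map_pow_smul_apply {G H X Y : Type*} [Monoid G] [Monoid H] [MulAction G X] [MulAction H Y]
    (f : X → Y) (g : G) (s : H) (h : ∀ x, f (g • x) = s • f x) (d : ℕ) :
    ∀ x, f (g ^ d • x) = s ^ d • f x := by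
  induction d with
  | zero => intro x; rw [pow_zero, pow_zero, one_smul, one_smul]
  | succ d ih => intro x; rw [pow_succ', pow_succ', mul_smul, mul_smul, h, ih]

theorem reductionModL_pow_smul [IsFunctionField1 Qb (modularFunctionFieldBar M)]
    (h : ReductionInputsModL A M) {φ : Γℚ}
    (hφ : A.IsFrobeniusAt φ q) (fr : ResidueField A ≃+* ResidueField A)
    (hfr : ∀ a, fr a = a ^ q) (d : ℕ) (x : JZero M) :
    reductionModL A M ((φ ^ d) • x) = residueGalois M (fr ^ d) • reductionModL A M x :=
  (map_pow_smul_apply (fun z : JZero M => reductionModL A M z) φ (residueGalois M fr)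
    (fun z => reductionModL_frobenius_smul A Reduction.one_le_deg Reduction.weakRiemann h hφ fr hfr z)
    d x).trans (congrArg (fun g : SemilinearAut (ResidueField A)
      (modularFunctionFieldFullC (ResidueField A) M) => g • reductionModL A M x)
      (map_pow (residueGalois M) fr d).symm)

include hA in
theorem finite_fixed_frobenius (fr : ResidueField A ≃+* ResidueField A) (hfr : ∀ a, fr a = a ^ q)
    {d : ℕ} (hd : 0 < d) :
    {z : JZeroC (ResidueField A) M | residueGalois M (fr ^ d) • z = z}.Finite := by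
  have := EC.isAlgClosed_residueField A
  refine finite_fixed_classes M fr (fun e he => ?_) hd
  have hp : ∀ (e : ℕ) a, (fr ^ e) a = a ^ q ^ e := by
    intro e
    induction e with
    | zero => intro a; simp
    | succ e ih =>
      intro a
      rw [pow_succ' fr, RingAut.mul_apply, ih, hfr, ← pow_mul, ← pow_succ]
  have hne : (Polynomial.X ^ q ^ e - Polynomial.X : Polynomial (ResidueField A)) ≠ 0 :=
    FiniteField.X_pow_card_sub_X_ne_zero _
      (Nat.one_lt_pow he.ne' (Fact.out : q.Prime).one_lt)
  refine (Polynomial.finite_setOf_isRoot hne).subset fun a ha => ?_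
  show Polynomial.IsRoot _ a
  rw [Polynomial.IsRoot, Polynomial.eval_sub, Polynomial.eval_pow, Polynomial.eval_X, ← hp,
    show (fr ^ e) a = a from ha, sub_self]

omit [NeZero M] in
theorem eq_zero_of_divisible {G : Type*} [AddCommGroup G] {S : Set G} (hS : S.Finite) {n : ℕ}
    (z : G) (zs : ℕ → G) (hzs : ∀ k, zs k ∈ S) (hz : ∀ k, z = n ^ k • zs k) (hnz : n • z = 0) :
    z = 0 := by
  have := hS.to_subtype
  obtain ⟨k, k', hne, h⟩ := Finite.exists_ne_map_eq_of_infinite fun k => (⟨_, hzs k⟩ : S)
  obtain ⟨a, b, hab, heq⟩ : ∃ a b, a < b ∧ zs a = zs b := by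
    rcases Nat.lt_or_gt_of_ne hne with h1 | h1
    · exact ⟨k, k', h1, congrArg Subtype.val h⟩
    · exact ⟨k', k, h1, (congrArg Subtype.val h).symm⟩
  obtain ⟨e, rfl⟩ := Nat.exists_eq_add_of_lt hab
  rw [hz (a + e + 1), ← heq, show a + e + 1 = e + 1 + a by omega, pow_add, mul_smul, ← hz a,
    pow_succ, mul_smul, hnz, smul_zero]

include hqM hA in
/-- **An endomorphism killing torsion has no torsion values on the special fibre.** -/
theorem reductionModL_eq_zero_of_nsmul (hN : (q = 2 → 3 ∣ M) ∧ (q = 3 → 2 ∣ M)) {φ : Γℚ} (hφ : A.IsFrobeniusAt φ q)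
    (T : JZero M →+ JZero M) (hTσ : ∀ (σ : Γℚ) x, σ • T x = T (σ • x))
    (hT : ∀ x : JZero M, IsOfFinAddOrder x → T x = 0) {n : ℕ} (hn : n ≠ 0) (y : JZero M)
    (hy : n • reductionModL A M (T y) = 0) : reductionModL A M (T y) = 0 := by
  classical
  have := EC.isAlgClosed_residueField A
  have : CharP (ResidueField A) q := EC.charP_residueField A (Fact.out : q.Prime) hA
  have : PerfectRing (ResidueField A) q := PerfectField.toPerfectRing q
  obtain ⟨r, hr, -, -⟩ := exists_gaussPlaceMap hqM hA hN
  have hin : ReductionInputsModL A M := ⟨r, hr, principalGeneratedByIntegral M hqM A hA⟩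
  set fr := frobeniusEquiv (ResidueField A) q
  have hfr : ∀ a, fr a = a ^ q := fun a => frobeniusEquiv_def _ _ a
  obtain ⟨E, hE, hfix⟩ := EichlerShimura.galoisFiniteLevel M y
  let E' := IntermediateField.normalClosure ℚ E Qb
  have : FiniteDimensional ℚ E := hE
  have : Normal ℚ Qb := normal_iff.2 fun a => ⟨(AlgebraicClosure.isAlgebraic ℚ).isAlgebraic a |>.isIntegral, IsAlgClosed.splits _⟩
  have : Normal ℚ E' := normalClosure.normal ℚ E Qb
  set d := Nat.card (E' ≃ₐ[ℚ] E') with hddef
  have hd : 0 < d := Nat.card_pos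
  have hφy : (φ ^ d) • y = y := by
    refine hfix _ fun a ha => ?_
    have h1 : AlgEquiv.restrictNormalHom E' (φ ^ d) = 1 := by
      rw [map_pow, hddef, pow_card_eq_one']
    have h2 := AlgEquiv.restrictNormal_commutes (φ ^ d) E' ⟨a, IntermediateField.le_normalClosure E ha⟩
    rw [show (φ ^ d).restrictNormal E' = 1 from h1] at h2
    exact h2.symm
  choose ys hys using fun k : ℕ => exists_nsmul_eq M (pow_ne_zero k hn) y
  have hfixk : ∀ k, (φ ^ d) • T (ys k) = T (ys k) := by
    intro k
    rw [hTσ, ← sub_eq_zero, ← map_sub]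
    refine hT _ (isOfFinAddOrder_iff_nsmul_eq_zero.2
      ⟨n ^ k, pow_pos (Nat.pos_of_ne_zero hn) k, ?_⟩)
    rw [nsmul_sub, hys, show n ^ k • ((φ ^ d) • ys k) = (φ ^ d) • (n ^ k • ys k) from
      (map_nsmul (DistribSMul.toAddMonoidHom (JZero M) (φ ^ d)) (n ^ k) (ys k)).symm, hys, hφy,
      sub_self]
  refine eq_zero_of_divisible (finite_fixed_frobenius hA fr hfr hd) _
    (fun k => reductionModL A M (T (ys k))) (fun k => ?_) (fun k => ?_) hy
  · show _ = _
    rw [← reductionModL_pow_smul hin hφ fr hfr, hfixk]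
  · rw [← map_nsmul, ← map_nsmul, hys]

end Fermat.Agent.BadPrime.Mazur.Local
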