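import Fermat.Agent.BadPrime.Mazur.Local.Hecke
import Fermat.Agent.BadPrime.Mazur.Local.Residual
import Fermat.Agent.BadPrime.Mazur.Local.Kill

/-!
# The residual classes of a class of slope zero

If `n` divides `c` times every order of the normalised residues of Kummer functions of slope zero,
the classes of these divisors divided by `n` are additive, commute with `T_ℓ` read through any lift
to `J₀(M)`, and vanish together only on `redClasses`.  Hence a polynomial in the Hecke operators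
vanishing on cusp forms of level `M` maps slope zero into `redClasses`.
-/

set_option autoImplicit false
set_option synthInstance.maxHeartbeats 400000
set_option maxHeartbeats 800000
set_option linter.unusedSectionVars false

noncomputable section

open HahnSeries ModularCurve AlgebraicCurve IsLocalRing MvPolynomial

namespace Fermat.Agent.BadPrime.Mazur.Local

open Fermat.Agent.Curve Fermat.Agent.BadPrime Fermat.Agent.LevelP Fermat.Agent.LevelP.TwoCompData

local notation "Qb" => AlgebraicClosure ℚ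
local notation "Γℚ" => (AlgebraicClosure ℚ ≃ₐ[ℚ] AlgebraicClosure ℚ)

local instance : Algebra.IsAlgebraic ℚ Qb := AlgebraicClosure.isAlgebraic ℚ

section Series

variable {R : Type*} [CommRing R] {l : ℕ} [NeZero l] {ζb : Rˣ} {g g' h h' : LaurentSeries R}

theorem IsResNorm.mul (hg : IsResNorm l ζb g g') (hh : IsResNorm l ζb h h') :
    IsResNorm l ζb (g * h) (g' * h') := by
  rw [IsResNorm, map_mul, map_mul, hg, hh]

theorem IsResNorm.pow (hg : IsResNorm l ζb g g') (m : ℕ) : IsResNorm l ζb (g ^ m) (g' ^ m) := by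
  rw [IsResNorm, map_pow, map_pow, hg]

end Series

section General

variable {q : ℕ} {A : ValuationSubring Qb} {F : Type*} [Field F] [Algebra Qb F]
  [IsFunctionField1 Qb F] {Fb : Type*} [Field Fb] [Algebra (ResidueField A) Fb]
  [IsFunctionField1 (ResidueField A) Fb] [IsAlgClosed (ResidueField A)]
  (T : TwoCompData q A F Fb) (L : Level q A) (n c : ℕ)

/-- `n` divides `c` times the orders of the normalised residues in slope zero. -/
def HasResDiv : Prop :=
  ∀ (x : Pic0 Qb F) (f : F), Kummer T L n x f → (n : ℤ) ∣ delta T L f → ∀ i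
    (Q : Place (ResidueField A) Fb), (n : ℤ) ∣ (c : ℤ) * Q.ord (normRes T L i f)

theorem hasResDiv_of_e_eq_one (hq : q.Prime) (hn : n ≠ 0) (hss : ∀ g, T.swap (T.swap g) = g)
    (he : L.e = 1) {m : ℕ} (hcm : c * m = 12) (hm : ∀ y, T.IsNode y → m ∣ T.r y) :
    HasResDiv T L n c := fun x f hf hδ i Q => by
  have h := dvd_ord_normRes hcm hm hq hn hss hf hδ i Q
  rwa [he, Nat.cast_one, mul_one] at h

/-- `z` is the class of `c` times the divisor of the normalised residue, divided by `n`. -/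
def IsResClass (i : Bool) (x : Pic0 Qb F) (z : Pic0 (ResidueField A) Fb) : Prop :=
  ∃ f, Kummer T L n x f ∧ ∃ E : Divisor.degZero (K := ResidueField A) (F := Fb),
    (∀ Q, (n : ℤ) * (E : Divisor (ResidueField A) Fb) Q = (c : ℤ) * Q.ord (normRes T L i f)) ∧
      Pic0.mk E = z

variable {T L n c} {i : Bool} {x y : Pic0 Qb F} {z z' : Pic0 (ResidueField A) Fb}

theorem IsResClass.add (hx : IsResClass T L n c i x z)
    (hy : IsResClass T L n c i y z') : IsResClass T L n c i (x + y) (z + z') := by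
  obtain ⟨f, hf, D, hD, rfl⟩ := hx
  obtain ⟨g, hg, E, hE, rfl⟩ := hy
  refine ⟨f * g, hf.mul hg, D + E, fun Q => ?_, rfl⟩
  rw [normRes_mul' hf.ne_zero hf.fixed hg.ne_zero hg.fixed,
    Q.ord_mul (normRes_ne_zero' hf.ne_zero hf.fixed i) (normRes_ne_zero' hg.ne_zero hg.fixed i),
    AddSubgroup.coe_add, Finsupp.add_apply, mul_add, mul_add, hD, hE]

theorem IsResClass.nsmul_eq_zero (hx : IsResClass T L n c i x z) : n • z = 0 := by
  obtain ⟨f, hf, D, hD, rfl⟩ := hx
  have hg := normRes_ne_zero' hf.ne_zero hf.fixed i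
  refine (pic0Mk_eq_zero_iff (n • D)).2 ⟨normRes T L i f ^ c, pow_ne_zero c hg, fun Q => ?_⟩
  rw [AddSubgroupClass.coe_nsmul, Finsupp.smul_apply, nsmul_eq_mul, Curve.ord_pow]
  exact hD Q

theorem IsResClass.unique (hn : n ≠ 0) (hx : IsResClass T L n c i x z)
    (hy : IsResClass T L n c i x z') : z = z' := by
  obtain ⟨f, hf, D, hD, rfl⟩ := hx
  obtain ⟨g, hg, E, hE, rfl⟩ := hy
  obtain ⟨a, u, ha, hafix, hu, hufix, rfl⟩ := hf.unique hn hg
  have h1 : algebraMap Qb F a ≠ 0 := (map_ne_zero _).2 ha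
  have h2 := T.fixed_algebraMap (H := L.H) hafix
  have hu' := normRes_ne_zero' hu hufix i
  obtain ⟨d, hd, hde⟩ := exists_normRes_const (T := T) ha hafix i
  refine (sub_eq_zero.1 ?_).symm
  rw [← pic0Mk_sub]
  refine (pic0Mk_eq_zero_iff _).2 ⟨normRes T L i u ^ c, pow_ne_zero c hu', fun Q =>
    mul_left_cancel₀ (Int.natCast_ne_zero.2 hn) ?_⟩
  rw [AddSubgroupClass.coe_sub, Finsupp.sub_apply, mul_sub, hD, hE,
    normRes_mul' (mul_ne_zero h1 (pow_ne_zero n hu)) (fixed_mul h2 (fixed_pow hufix n))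
      hf.ne_zero hf.fixed, normRes_mul' h1 h2 (pow_ne_zero n hu) (fixed_pow hufix n),
    normRes_pow' hu hufix, hde,
    Q.ord_mul (mul_ne_zero ((map_ne_zero _).2 hd) (pow_ne_zero n hu'))
      (normRes_ne_zero' hf.ne_zero hf.fixed i),
    Q.ord_mul ((map_ne_zero _).2 hd) (pow_ne_zero n hu'), Curve.ord_algebraMap, Curve.ord_pow,
    Curve.ord_pow]
  ring

variable [NeZero n]

theorem exists_isResClass (hD : HasResDiv T L n c) (i : Bool) {x : fixedClasses T L n}
    (hx : slopeHom T L n x = 0) : ∃ z, IsResClass T L n c i (x : Pic0 Qb F) z := by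
  obtain ⟨f, hf⟩ := exists_kummer x.2
  have hδ : (n : ℤ) ∣ delta T L f := by
    rw [← ZMod.intCast_zmod_eq_zero_iff_dvd, ← slopeHom_eq hf]
    exact hx
  set g := normRes T L i f
  set E : Divisor (ResidueField A) Fb :=
    (divisorOf g).mapRange (fun z : ℤ => (c : ℤ) * z / n) (by simp) with hEdef
  have hEQ : ∀ Q, (n : ℤ) * E Q = (c : ℤ) * Q.ord g := fun Q => by
    rw [hEdef, Finsupp.mapRange_apply, divisorOf_apply]
    exact Int.mul_ediv_cancel' (hD _ f hf hδ i Q)
  have hdeg : Divisor.degree E = 0 := by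
    obtain ⟨E₀, hE₀, hE₀'⟩ := HasPrincipalDivisors.exists_divisor (K := ResidueField A) g
      (normRes_ne_zero' hf.ne_zero hf.fixed i)
    have h : (n : ℤ) • E = (c : ℤ) • E₀ := Finsupp.ext fun Q => by
      rw [Finsupp.smul_apply, Finsupp.smul_apply, smul_eq_mul, smul_eq_mul, hEQ, hE₀]
    have h' := congrArg Divisor.degree h
    rw [map_zsmul, map_zsmul, hE₀', smul_zero, smul_eq_mul] at h'
    exact (mul_eq_zero.1 h').resolve_left (Int.natCast_ne_zero.2 (NeZero.ne n))
  exact ⟨_, f, hf, ⟨E, Divisor.mem_degZero.2 hdeg⟩, hEQ, rfl⟩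

/-- The residual class. -/
def resHom (hD : HasResDiv T L n c) (i : Bool) :
    (slopeHom T L n).ker →+ Pic0 (ResidueField A) Fb :=
  AddMonoidHom.mk' (fun x => (exists_isResClass hD i (x := (x : fixedClasses T L n)) x.2).choose)
    fun x y => (exists_isResClass hD i (x + y).2).choose_spec.unique (NeZero.ne n)
      ((exists_isResClass hD i x.2).choose_spec.add (exists_isResClass hD i y.2).choose_spec)

theorem isResClass_resHom (hD : HasResDiv T L n c) (i : Bool) (x : (slopeHom T L n).ker) :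
    IsResClass T L n c i ((x : fixedClasses T L n) : Pic0 Qb F) (resHom hD i x) :=
  (exists_isResClass hD i x.2).choose_spec

/-- **Both residual classes vanish only on the reduced part.** -/
theorem mem_redClasses_of_resHom_eq_zero (hD : HasResDiv T L n c) (x : (slopeHom T L n).ker)
    (h : ∀ i, resHom hD i x = 0) :
    ((x : fixedClasses T L n) : Pic0 Qb F) ∈ redClasses T L n c := by
  obtain ⟨f, hf⟩ := exists_kummer (x : fixedClasses T L n).2
  refine ⟨f, hf, ?_, fun i => ?_⟩
  · rw [← ZMod.intCast_zmod_eq_zero_iff_dvd, ← slopeHom_eq hf]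
    exact x.2
  have h0 := isResClass_resHom hD i x
  rw [h i] at h0
  obtain ⟨g, hg, E, hE, hE0⟩ := h0
  obtain ⟨u, hu, hEu⟩ := (pic0Mk_eq_zero_iff E).1 hE0
  obtain ⟨a, v, ha, hafix, hv, hvfix, hfe⟩ := hg.unique (NeZero.ne n) hf
  have h1 : algebraMap Qb F a ≠ 0 := (map_ne_zero _).2 ha
  have h2 := T.fixed_algebraMap (H := L.H) hafix
  have hg0 := normRes_ne_zero' hg.ne_zero hg.fixed i
  obtain ⟨b, hb, hbe⟩ := exists_algebraMap_eq_of_forall_ord_eq_zero (K := ResidueField A)
    (f := normRes T L i g ^ c / u ^ n) (div_ne_zero (pow_ne_zero c hg0) (pow_ne_zero n hu))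
    fun Q => by
      rw [Curve.ord_div Q (pow_ne_zero c hg0) (pow_ne_zero n hu), Curve.ord_pow, Curve.ord_pow,
        ← hEu Q, hE, sub_self]
  obtain ⟨d, hd, hde⟩ := exists_normRes_const (T := T) ha hafix i
  obtain ⟨e, he⟩ := IsAlgClosed.exists_pow_nat_eq (d ^ c * b) (Nat.pos_of_ne_zero (NeZero.ne n))
  refine ⟨algebraMap _ Fb e * normRes T L i v ^ c * u, ?_⟩
  rw [hfe, normRes_mul' (mul_ne_zero h1 (pow_ne_zero n hv)) (fixed_mul h2 (fixed_pow hvfix n))
      hg.ne_zero hg.fixed, normRes_mul' h1 h2 (pow_ne_zero n hv) (fixed_pow hvfix n),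
    normRes_pow' hv hvfix, hde, mul_pow, mul_pow, mul_pow, mul_pow, ← map_pow, he, map_mul,
    map_pow, ← div_mul_cancel₀ (normRes T L i g ^ c) (pow_ne_zero n hu), ← hbe]
  ring

theorem ker_coe_add (y y' : (slopeHom T L n).ker) {u u' w : Pic0 Qb F}
    (h : ((y : fixedClasses T L n) : Pic0 Qb F) = u)
    (h' : ((y' : fixedClasses T L n) : Pic0 Qb F) = u') (e : w = u + u') :
    (((y + y' : (slopeHom T L n).ker) : fixedClasses T L n) : Pic0 Qb F) = w := by
  rw [AddSubgroup.coe_add, AddSubgroup.coe_add, h, h', e]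

theorem ker_coe_zsmul (y : (slopeHom T L n).ker) (a : ℤ) {w : Pic0 Qb F}
    (e : w = a • ((y : fixedClasses T L n) : Pic0 Qb F)) :
    (((a • y : (slopeHom T L n).ker) : fixedClasses T L n) : Pic0 Qb F) = w := by
  rw [AddSubgroupClass.coe_zsmul, AddSubgroupClass.coe_zsmul, e]

theorem resHom_add_eq (hD : HasResDiv T L n c) (i : Bool) {K : Type*} [AddCommGroup K]
    (r : K →+ Pic0 (ResidueField A) Fb) {y y' : (slopeHom T L n).ker} {u u' w : K}
    (h : resHom hD i y = r u) (h' : resHom hD i y' = r u') (e : w = u + u') :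
    resHom hD i (y + y') = r w := by
  rw [map_add, h, h', e, map_add]

theorem resHom_zsmul_eq (hD : HasResDiv T L n c) (i : Bool) {K : Type*} [AddCommGroup K]
    (r : K →+ Pic0 (ResidueField A) Fb) {y : (slopeHom T L n).ker} {u w : K} (a : ℤ)
    (h : r u = resHom hD i y) (e : w = a • u) : resHom hD i (a • y) = r w := by
  rw [AddMonoidHom.map_zsmul, ← h, e, AddMonoidHom.map_zsmul]

end General

variable {q : ℕ} [Fact q.Prime] {M : ℕ} [NeZero M] {A : ValuationSubring Qb}
  [IsFunctionField1 Qb (modularFunctionFieldBar (M * q))]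
  [IsAlgClosed (ResidueField A)]
  [IsFunctionField1 (ResidueField A) (modularFunctionFieldFullC (ResidueField A) M)]
  {T : TwoCompData q A (modularFunctionFieldBar (M * q))
    (modularFunctionFieldFullC (ResidueField A) M)} (hT : IsX0Data T) {L : Level q A}
  {n c : ℕ} (hN : (q = 2 → 3 ∣ M) ∧ (q = 3 → 2 ∣ M))

include hT hN in
/-- Divisor classes of the special fibre lift. -/
theorem IsX0Data.exists_reductionModL_eq (z : JZeroC (ResidueField A) M) :
    ∃ z₀ : JZero M, reductionModL A M z₀ = z := by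
  classical
  obtain ⟨r, hr, -, hsurj⟩ := exists_gaussPlaceMap hT.not_dvd hT.liesOver hN
  obtain ⟨g, hg⟩ := hsurj.hasRightInverse
  obtain ⟨E, rfl⟩ := Pic0.mk_surjective z
  set D := Finsupp.mapDomain g (E : Divisor (ResidueField A) _) with hDdef
  have hrD : Finsupp.mapDomain r D = E := by
    rw [hDdef, ← Finsupp.mapDomain_comp, hg.comp_eq_id, Finsupp.mapDomain_id]
  have hdeg : Divisor.degree D = 0 := by
    rw [← degree_mapDomain_of_deg_eq hr.1, hrD]
    exact Divisor.mem_degZero.1 E.2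
  refine ⟨Pic0.mk ⟨D, Divisor.mem_degZero.2 hdeg⟩, ?_⟩
  rw [reductionModL_mk_eq hT.not_dvd hT.liesOver hr]
  exact congrArg Pic0.mk (Subtype.ext hrD)

include hT hN in
/-- **The residual classes commute with `T_ℓ`.** -/
theorem IsX0Data.isResClass_hecke {ℓ : Nat.Primes} (hℓ : ¬ (ℓ : ℕ) ∣ M * q) {i : Bool}
    {x : JZero (M * q)} {z₀ : JZero M}
    (hx : IsResClass T L n c i x (reductionModL A M z₀)) :
    IsResClass T L n c i (heckeOperatorBar (M * q) ℓ x)
      (reductionModL A M (heckeOperatorBar M ℓ z₀)) := by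
  have : NeZero (ℓ : ℕ) := ⟨ℓ.2.ne_zero⟩
  obtain ⟨r, hr, hr', -⟩ := exists_gaussPlaceMap hT.not_dvd hT.liesOver hN
  obtain ⟨u, hu⟩ := exists_rootUnit A ℓ.2
  have hℓM : ¬ (ℓ : ℕ) ∣ M := fun hd => hℓ (hd.mul_right q)
  obtain ⟨f, hf, E, hE, hEz⟩ := hx
  obtain ⟨D, rfl⟩ := Pic0.mk_surjective z₀
  rw [reductionModL_mk_eq hT.not_dvd hT.liesOver hr, eq_comm, ← sub_eq_zero, ← pic0Mk_sub] at hEz
  obtain ⟨v, hv, hDv⟩ := (pic0Mk_eq_zero_iff _).1 hEz
  obtain ⟨φ, hφ⟩ := (Reduction.gaussDataX0 M hT.not_dvd A hT.liesOver).exists_lift v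
  have hv' : (v : LaurentSeries (ResidueField A)) ≠ 0 := fun h0 => hv (Subtype.ext h0)
  obtain ⟨v₁, hv₁, -, hvN⟩ :=
    exists_residual_heckeNorm hT.not_dvd hT.liesOver ℓ.2 hℓM u hu (f := φ) hφ hv'
  set g := normRes T L i f with hg
  set g₁ := normRes T L i (heckeNorm (M * q) (ℓ : ℕ) f) with hg₁
  have hgne : g ≠ 0 := normRes_ne_zero' hf.ne_zero hf.fixed i
  have hg₁ne : g₁ ≠ 0 := normRes_ne_zero'
    (heckeNorm_ne_zero _ _ (finiteAlong _) hf.ne_zero) (hT.fixed_heckeNorm hf.fixed) i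
  have hN : IsResNorm (ℓ : ℕ) (Units.map (residue A).toMonoidHom u)
      ((g ^ c * v ^ n : modularFunctionFieldFullC (ResidueField A) M) :
        LaurentSeries (ResidueField A))
      ((g₁ ^ c * v₁ ^ n : modularFunctionFieldFullC (ResidueField A) M) :
        LaurentSeries (ResidueField A)) := by
    push_cast
    exact ((hT.heckeNorm_local ℓ.2 hℓ u hu hf.ne_zero hf.fixed i).2.pow c).mul (hvN.pow n)
  have hrD : ∀ Q, Finsupp.mapDomain r ((n : ℤ) • (D : Divisor Qb _)) Q = Q.ord (g ^ c * v ^ n) := by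
    intro Q
    rw [Finsupp.mapDomain_smul, Finsupp.smul_apply, smul_eq_mul,
      Q.ord_mul (pow_ne_zero c hgne) (pow_ne_zero n hv), Curve.ord_pow, Curve.ord_pow, ← hE Q,
      ← hDv Q, AddSubgroupClass.coe_sub, Finsupp.sub_apply, coe_reductionDegZeroAlong]
    ring
  have hdeg : Divisor.degree ((n : ℤ) • (D : Divisor Qb (modularFunctionFieldBar M))) = 0 := by
    rw [map_zsmul, Divisor.mem_degZero.1 D.2, smul_zero]
  have hmain := mapDomain_heckeDiv hT.not_dvd hT.liesOver hr' ℓ.2 hℓM u hu hdeg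
    (mul_ne_zero (pow_ne_zero c hgne) (pow_ne_zero n hv)) hrD hN
  obtain ⟨E₁, hE₁, hE₁'⟩ := HasPrincipalDivisors.exists_divisor (K := ResidueField A) v₁ hv₁
  refine ⟨heckeNorm (M * q) (ℓ : ℕ) f, hT.kummer_heckeNorm ℓ.2 hf,
    reductionDegZeroAlong r hr.1 ⟨heckeDiv M ℓ D, heckeDiv_mem_degZero M ℓ D.2⟩ -
      ⟨E₁, Divisor.mem_degZero.2 hE₁'⟩, fun Q => ?_, ?_⟩
  · have h := hmain Q
    rw [map_zsmul, Finsupp.mapDomain_smul, Finsupp.smul_apply, smul_eq_mul,
      Q.ord_mul (pow_ne_zero c hg₁ne) (pow_ne_zero n hv₁), Curve.ord_pow, Curve.ord_pow] at h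
    rw [AddSubgroupClass.coe_sub, Finsupp.sub_apply, coe_reductionDegZeroAlong, mul_sub, h, hE₁]
    ring
  · rw [pic0Mk_sub, (pic0Mk_eq_zero_iff ⟨E₁, Divisor.mem_degZero.2 hE₁'⟩).2 ⟨v₁, hv₁, hE₁⟩,
      sub_zero, ← reductionModL_mk_eq hT.not_dvd hT.liesOver hr]
    exact congrArg _ (heckeOperatorBar_mk M (ℓ : ℕ) ℓ.2 D).symm

theorem evalJLow_C_apply {M : ℕ} [NeZero M] (N : ℕ) (a : ℤ) (z : JZero M) :
    evalJLow M N (C a) z = a • z := by
  simp [evalJLow]

theorem evalJ_C_apply (N : ℕ) [NeZero N] (a : ℤ) (z : JZero N) : evalJ N (C a) z = a • z := by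
  simp [evalJ]

theorem evalJLow_add_apply {M : ℕ} [NeZero M] (N : ℕ) (a b : MvPolynomial (GoodPrimes N) ℤ)
    (z : JZero M) : evalJLow M N (a + b) z = evalJLow M N a z + evalJLow M N b z := by
  rw [map_add]; rfl

theorem evalJ_add_apply (N : ℕ) [NeZero N] (a b : MvPolynomial (GoodPrimes N) ℤ) (z : JZero N) :
    evalJ N (a + b) z = evalJ N a z + evalJ N b z := by
  rw [map_add]; rfl

variable [NeZero n] (hD : HasResDiv T L n c)

include hT hN in
/-- **The residual classes of a translate, read through lifts.** -/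
theorem IsX0Data.resHom_hecke (ℓ : Nat.Primes) (hℓ : ¬ (ℓ : ℕ) ∣ M * q) (i : Bool)
    (x y : (slopeHom T L n).ker)
    (hy : ((y : fixedClasses T L n) : JZero (M * q)) =
      heckeOperatorBar (M * q) ℓ ((x : fixedClasses T L n) : JZero (M * q)))
    (z : JZero M) (hz : reductionModL A M z = resHom hD i x) :
    resHom hD i y = reductionModL A M (heckeOperatorBar M ℓ z) := by
  refine (isResClass_resHom hD i y).unique (NeZero.ne n) ?_
  rw [hy]
  exact hT.isResClass_hecke hN hℓ (hz ▸ isResClass_resHom hD i x)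

include hT hN in
/-- Polynomials in the Hecke operators act on residual classes through lifts. -/
theorem IsX0Data.resHom_evalJ (i : Bool) (t : MvPolynomial (GoodPrimes (M * q)) ℤ) :
    ∀ (x : (slopeHom T L n).ker) (z : JZero M), reductionModL A M z = resHom hD i x →
      ∃ y : (slopeHom T L n).ker, ((y : fixedClasses T L n) : JZero (M * q)) =
          evalJ (M * q) t ((x : fixedClasses T L n) : JZero (M * q)) ∧
        resHom hD i y = reductionModL A M (evalJLow M (M * q) t z) := by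
  induction t using MvPolynomial.induction_on with
  | C a =>
    intro x z hz
    refine ⟨a • x, ?_, ?_⟩
    · exact ker_coe_zsmul x a (evalJ_C_apply (M * q) a _)
    · exact resHom_zsmul_eq hD i (reductionModL A M) a hz (evalJLow_C_apply (M * q) a z)
  | add a b ha hb =>
    intro x z hz
    obtain ⟨y, hy, hy'⟩ := ha x z hz
    obtain ⟨y₂, hy₂, hy₂'⟩ := hb x z hz
    refine ⟨y + y₂, ?_, ?_⟩
    · exact ker_coe_add y y₂ hy hy₂ (evalJ_add_apply (M * q) a b _)
    · exact resHom_add_eq hD i (reductionModL A M) hy' hy₂' (evalJLow_add_apply (M * q) a b z)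
  | mul_X a ℓ ha =>
    intro x z hz
    have h1 := hT.mem_fixedClasses_hecke ℓ.1 (x : fixedClasses T L n).2
    have h2 : slopeHom T L n ⟨_, h1⟩ = 0 := by
      rw [hT.slopeHom_hecke ℓ.1 ℓ.2 (x : fixedClasses T L n) ⟨_, h1⟩ rfl,
        show slopeHom T L n (x : fixedClasses T L n) = 0 from x.2, mul_zero]
    let x₁ : fixedClasses T L n := ⟨_, h1⟩
    let x₂ : (slopeHom T L n).ker := ⟨x₁, AddMonoidHom.mem_ker.2 h2⟩
    have hx₂ : ((x₂ : fixedClasses T L n) : JZero (M * q)) =
        heckeOperatorBar (M * q) ℓ.1 ((x : fixedClasses T L n) : JZero (M * q)) := rfl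
    have h3 := hT.resHom_hecke hN hD ℓ.1 ℓ.2 i x x₂ hx₂ z hz
    have h4 := ha x₂ (heckeOperatorBar M ℓ.1 z)
    have h5 := h4 (Eq.symm h3)
    obtain ⟨y, hy, hy'⟩ := h5
    refine ⟨y, hy.trans ?_, hy'.trans ?_⟩
    · rw [map_mul, evalJ_X]; rfl
    · rw [map_mul, evalJLow_X]; rfl

theorem galois_smul_evalJLow {N : ℕ} (σ : Γℚ) (t : MvPolynomial (GoodPrimes N) ℤ) :
    ∀ z : JZero M, σ • evalJLow M N t z = evalJLow M N t (σ • z) := by
  induction t using MvPolynomial.induction_on with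
  | C a =>
    intro z
    simpa [evalJLow] using map_zsmul (DistribSMul.toAddMonoidHom (JZero M) σ) a z
  | add a b ha hb =>
    intro z
    rw [map_add, LinearMap.add_apply, LinearMap.add_apply, smul_add, ha, hb]
  | mul_X a ℓ ha =>
    intro z
    rw [map_mul, evalJLow_X, Module.End.mul_apply, Module.End.mul_apply, ha,
      EichlerShimura.galois_smul_heckeOperatorBar]

include hT hN hD in
/-- **Polynomials vanishing at level `M` map slope zero into the reduced part.** -/
theorem IsX0Data.evalJ_mem_redClasses {φ : Γℚ} (hφ : A.IsFrobeniusAt φ q)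
    {t : MvPolynomial (GoodPrimes (M * q)) ℤ} (ht : evalS (M := M) (dvd_mul_right M q) t = 0)
    (x : fixedClasses T L n) (hx : slopeHom T L n x = 0) :
    evalJ (M * q) t (x : JZero (M * q)) ∈ redClasses T L n c := by
  have key : ∀ i, ∃ y : (slopeHom T L n).ker,
      ((y : fixedClasses T L n) : JZero (M * q)) = evalJ (M * q) t (x : JZero (M * q)) ∧
        resHom hD i y = 0 := by
    intro i
    obtain ⟨z, hz⟩ := hT.exists_reductionModL_eq hN (resHom hD i ⟨x, hx⟩)
    obtain ⟨y, hy, hy'⟩ := hT.resHom_evalJ hN hD i t ⟨x, hx⟩ z hz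
    refine ⟨y, hy, ?_⟩
    rw [hy']
    refine reductionModL_eq_zero_of_nsmul hT.not_dvd hT.liesOver hN hφ
      (evalJLow M (M * q) t).toAddMonoidHom (fun σ w => galois_smul_evalJLow σ t w)
      (fun w hw => evalJLow_eq_zero_of_evalS (dvd_mul_right M q) ht hw) (NeZero.ne n) z ?_
    show n • reductionModL A M (evalJLow M (M * q) t z) = 0
    rw [← hy']
    exact (isResClass_resHom hD i y).nsmul_eq_zero
  obtain ⟨y, hy, hy'⟩ := key false
  obtain ⟨y₂, hy₂, hy₂'⟩ := key true
  obtain rfl : y = y₂ := Subtype.ext (Subtype.ext (hy.trans hy₂.symm))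
  rw [← hy]
  exact mem_redClasses_of_resHom_eq_zero hD y fun i => by cases i <;> assumption

end Fermat.Agent.BadPrime.Mazur.Local
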