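import Fermat.Agent.BadPrime.Mazur.Defs

/-!
# The local inputs of Mazur's principle modulo an integer prime to `q`

`LocalInputsMod q n c M` generalises `LocalInputs q p M` to `n`-torsion, the relation of Frobenius
and the Atkin–Lehner involution holding up to the bounded factor `c`.
-/

set_option autoImplicit false

noncomputable section

open ModularCurve MvPolynomial

namespace Fermat.Agent.BadPrime.Mazur

local notation "ℚ̄" => AlgebraicClosure ℚ
local notation "Γℚ" => (AlgebraicClosure ℚ ≃ₐ[ℚ] AlgebraicClosure ℚ)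

/-- The inputs from the bad reduction of `X₀(Mq)` at `q ∤ M` on `n`-torsion classes. -/
def LocalInputsMod (q n c M : ℕ) [NeZero M] [NeZero (M * q)] : Prop :=
  ∃ w : JZero (M * q) →+ JZero (M * q),
    (∀ x, w (w x) = x) ∧ (∀ (σ : Γℚ) x, σ • w x = w (σ • x)) ∧
    (∀ (ℓ : Nat.Primes), ¬ (ℓ : ℕ) ∣ M * q → ∀ x,
      heckeOperatorBar (M * q) ℓ (w x) = w (heckeOperatorBar (M * q) ℓ x)) ∧
    ∀ L : IntermediateField ℚ ℚ̄, FiniteDimensional ℚ L → IsGalois ℚ L →
    (∀ A : ValuationSubring ℚ̄, A.LiesOverPrime q →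
      ∀ τ ∈ A.inertiaSubgroupIn ℚ, τ ∈ L.fixingSubgroup) →
    ∀ A : ValuationSubring ℚ̄, A.LiesOverPrime q →
    ∀ φ : Γℚ, A.IsFrobeniusAt φ q →
    ∃ (slope : fixedTorsion (M * q) n L →+ ZMod n) (red : AddSubgroup (JZero (M * q))),
      (∀ (ℓ : Nat.Primes), ¬ (ℓ : ℕ) ∣ M * q → ∀ x y : fixedTorsion (M * q) n L,
        (y : JZero (M * q)) = heckeOperatorBar (M * q) ℓ x →
          slope y = (((ℓ : ℕ) : ZMod n) + 1) * slope x) ∧
      (∀ t, evalS (M := M) (dvd_mul_right M q) t = 0 →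
        ∀ x : fixedTorsion (M * q) n L, slope x = 0 → evalJ (M * q) t (x : JZero (M * q)) ∈ red) ∧
      ∀ x : fixedTorsion (M * q) n L, slope x = 0 → (x : JZero (M * q)) ∈ red →
        c • (φ • (x : JZero (M * q)) + q • w (x : JZero (M * q))) = 0

/-- For a prime `p` not dividing the bounded factor these are the inputs of Mazur's principle. -/
theorem LocalInputsMod.localInputs {q p c M : ℕ} [NeZero M] [NeZero (M * q)]
    (hpc : Nat.Coprime c p) (h : LocalInputsMod q p c M) : LocalInputs q p M := by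
  obtain ⟨w, hww, hσw, hTw, h⟩ := h
  refine ⟨w, hww, hσw, hTw, fun L hL hG hI A hA φ hφ => ?_⟩
  obtain ⟨slope, red, h1, h2, h3⟩ := h L hL hG hI A hA φ hφ
  refine ⟨slope, red, fun ℓ hℓ x y hy => h1 ℓ (fun hd => hℓ (hd.mul_right p)) x y hy, h2,
    fun x hx hr => ?_⟩
  set y := φ • (x : JZero (M * q)) + q • w (x : JZero (M * q)) with hy
  have hxp : p • (x : JZero (M * q)) = 0 := x.2.1
  have hσp : p • (φ • (x : JZero (M * q))) = 0 := by
    have h := map_nsmul (DistribSMul.toAddMonoidHom (JZero (M * q)) φ) p (x : JZero (M * q))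
    rw [hxp, _root_.map_zero] at h
    exact h.symm
  have hpy : p • y = 0 := by
    rw [hy, nsmul_add, hσp, zero_add, smul_comm, ← map_nsmul, hxp, _root_.map_zero, smul_zero]
  have hcy : c • y = 0 := h3 x hx hr
  have h1' : (addOrderOf y) ∣ 1 := by
    rw [← hpc.gcd_eq_one]
    exact Nat.dvd_gcd (addOrderOf_dvd_of_nsmul_eq_zero hcy) (addOrderOf_dvd_of_nsmul_eq_zero hpy)
  have hy0 : y = 0 := AddMonoid.addOrderOf_eq_one_iff.1 (Nat.dvd_one.1 h1')
  exact eq_neg_of_add_eq_zero_left hy0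

end Fermat.Agent.BadPrime.Mazur
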