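import Fermat.Agent.BadPrime.Mazur.Local.Kummer

/-!
# Residues of Kummer functions of slope zero

If the slope of a fixed Kummer function is divisible by `n`, then so is `c e` times every order of
its two normalised residues, where `c m = 12` for some `m` dividing every `r y`: at a point which is
not a node the divisor has a local generator which is a unit along the component, and at a node the
modular unit measures the twist.
-/

set_option autoImplicit false
set_option linter.unusedSectionVars false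

noncomputable section

namespace Fermat.Agent.BadPrime.Mazur.Local

open AlgebraicCurve Fermat.Agent.Curve IsLocalRing Fermat.Agent.LevelP
  Fermat.Agent.LevelP.TwoCompData

local notation "Qb" => AlgebraicClosure ℚ
local notation "Γℚ" => (AlgebraicClosure ℚ ≃ₐ[ℚ] AlgebraicClosure ℚ)

variable {q : ℕ} {A : ValuationSubring Qb} {F : Type*} [Field F] [Algebra Qb F]
  {Fb : Type*} [Field Fb] [Algebra (ResidueField A) Fb]
  {T : TwoCompData q A F Fb} {L : Level q A}

section Swap

variable {f : F} {a : ℤ}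

theorem valuation_eq_one_iff (V : ValuationSubring F) {x : F} (hx : x ≠ 0) :
    V.valuation x = 1 ↔ x ∈ V ∧ x⁻¹ ∈ V := by
  rw [← V.valuation_le_one_iff, ← V.valuation_le_one_iff, map_inv₀,
    inv_le_one₀ (zero_lt_iff.2 ((map_ne_zero _).2 hx)), ← le_antisymm_iff]

theorem vord_iff {i : Bool} :
    T.VOrd L.π i f a ↔ (T.V i).valuation (algebraMap Qb F (L.π ^ (-a)) * f) = 1 := by
  have h0 : (T.V i).valuation (algebraMap Qb F L.π) ^ a ≠ 0 :=
    zpow_ne_zero _ (T.valuation_pi_ne_zero L i)
  rw [VOrd, map_mul, map_zpow₀, map_zpow₀, zpow_neg, inv_mul_eq_one₀ h0]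
  exact eq_comm

theorem vord_swap_iff :
    T.VOrd L.π false (T.swap f) a ↔ T.VOrd L.π true f a := by
  rw [vord_iff, vord_iff, show algebraMap Qb F (L.π ^ (-a)) * T.swap f =
    T.swap (algebraMap Qb F (L.π ^ (-a)) * f) by rw [map_mul, AlgEquiv.commutes]]
  set x := algebraMap Qb F (L.π ^ (-a)) * f
  rcases eq_or_ne x 0 with hx | hx
  · simp [hx]
  rw [valuation_eq_one_iff _ ((map_ne_zero _).2 hx), valuation_eq_one_iff _ hx,
    ← map_inv₀, T.swap_mem_iff, T.swap_mem_iff]

theorem vord_swap_true_iff (hss : ∀ g, T.swap (T.swap g) = g) :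
    T.VOrd L.π true (T.swap f) a ↔ T.VOrd L.π false f a := by
  rw [← vord_swap_iff, hss]

theorem fixed_swap {H : Subgroup Γℚ} (hfix : T.Fixed H f) : T.Fixed H (T.swap f) :=
  fun σ hσ => by rw [← T.swap_act, hfix σ hσ]

variable (hf : f ≠ 0) (hfix : T.Fixed L.H f)

include hf hfix in
theorem normRes_swap : normRes T L false (T.swap f) = normRes T L true f := by
  have h := vord_ordAt (i := true) hf hfix
  rw [normRes_eq (vord_swap_iff.2 h), normRes_eq h]
  have e : algebraMap Qb F (L.π ^ (-ordAt T L true f)) * T.swap f =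
      T.swap (algebraMap Qb F (L.π ^ (-ordAt T L true f)) * f) := by
    rw [map_mul, AlgEquiv.commutes]
  have hV := T.mem_of_valuation_eq_one (vord_normalised h).valuation_eq_one
  rw [e, residueAt_of_mem T hV, residueAt_of_mem T ((T.swap_mem_iff _).2 hV)]
  exact T.red_swap ⟨_, hV⟩ _

include hf hfix in
theorem normRes_swap_true (hss : ∀ g, T.swap (T.swap g) = g) :
    normRes T L true (T.swap f) = normRes T L false f := by
  rw [← normRes_swap ((map_ne_zero _).2 hf) (fixed_swap hfix), hss]

include hf hfix in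
theorem delta_swap (hss : ∀ g, T.swap (T.swap g) = g) :
    delta T L (T.swap f) = -delta T L f := by
  rw [delta, delta, ordAt_eq ((vord_swap_true_iff hss).2 (vord_ordAt hf hfix)),
    ordAt_eq (vord_swap_iff.2 (vord_ordAt hf hfix))]
  ring

theorem Kummer.swap {n : ℕ} {x : Pic0 Qb F} [IsFunctionField1 Qb F] (hk : Kummer T L n x f) :
    Kummer T L n (SemilinearAut.ofAlgAut T.swap • x) (T.swap f) := by
  have := hk.smul (SemilinearAut.ofAlgAut T.swap) fun g hg => by
    rw [SemilinearAut.ofAlgAut_smul]; exact fixed_swap hg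
  rwa [SemilinearAut.ofAlgAut_smul] at this

end Swap

variable [IsFunctionField1 Qb F] [IsFunctionField1 (ResidueField A) Fb]
  [IsAlgClosed (ResidueField A)] {n : ℕ} {x : Pic0 Qb F} {f : F}
  {c m : ℕ} (hcm : c * m = 12) (hm : ∀ y, T.IsNode y → m ∣ T.r y)

include hcm hm in
/-- Orders along the first component. -/
theorem dvd_ord_normRes_false (hq : q.Prime) (hn : n ≠ 0) (hf : Kummer T L n x f)
    (hδ : (n : ℤ) ∣ delta T L f) (Q : Place (ResidueField A) Fb) :
    (n : ℤ) ∣ (c : ℤ) * (L.e : ℤ) * Q.ord (normRes T L false f) := by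
  obtain ⟨D, -, hDfix, hD⟩ := hf.exists_divFixed hn
  obtain ⟨y, ⟨hy, hQ⟩, -⟩ := T.existsUnique_pt false Q
  obtain ⟨ψ, hψfix, hψ⟩ := T.exists_localGen hq L _ hDfix y
  set G := f / ψ ^ n with hG
  have hG0 : G ≠ 0 := div_ne_zero hf.ne_zero (pow_ne_zero n hψ.1)
  have hGfix : T.Fixed L.H G := fixed_div hf.fixed (fixed_pow hψfix n)
  have hgen : T.LocalGen y 0 G := ⟨hG0, fun P hP => by
    rw [hG, Curve.ord_div P hf.ne_zero (pow_ne_zero n hψ.1), Curve.ord_pow, ← hD P, hψ.2 P hP,
      sub_self, Finsupp.zero_apply]⟩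
  have hfe : f = G * ψ ^ n := (div_mul_cancel₀ _ (pow_ne_zero n hψ.1)).symm
  rw [hfe, normRes_mul' hG0 hGfix (pow_ne_zero n hψ.1) (fixed_pow hψfix n),
    normRes_pow' hψ.1 hψfix, Q.ord_mul (normRes_ne_zero' hG0 hGfix false)
      (pow_ne_zero n (normRes_ne_zero' hψ.1 hψfix false)), Curve.ord_pow, mul_add]
  refine dvd_add ?_ (Dvd.intro_left ((c : ℤ) * (L.e : ℤ) * Q.ord (normRes T L false ψ)) (by ring))
  have hv : ∀ i, T.VOrd L.π i G (ordAt T L i G) := fun i => vord_ordAt hG0 hGfix
  subst hQ
  by_cases hnode : T.IsNode y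
  · have h := T.slope_eq hq L hnode hGfix hgen (hv false) (hv true)
    obtain ⟨s, hs⟩ := hm y hnode
    rw [hs, show (12 : ℤ) = (c : ℤ) * m by rw [← Nat.cast_mul, hcm]; norm_num, Nat.cast_mul] at h
    have hm0 : (m : ℤ) ≠ 0 := by
      rintro h0
      rw [Int.natCast_eq_zero.1 h0, mul_zero] at hcm
      omega
    rw [normRes_eq (hv false), show (c : ℤ) * (L.e : ℤ) * (T.loc y false).ord (T.residueAt false
      (algebraMap Qb F (L.π ^ (-ordAt T L false G)) * G)) =
      (ordAt T L true G - ordAt T L false G) * s from mul_left_cancel₀ hm0 (by linear_combination h)]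
    refine dvd_mul_of_dvd_left ?_ _
    have hδG : ordAt T L true G - ordAt T L false G = delta T L f - n * delta T L ψ := by
      conv_rhs => rw [hfe, delta_mul hG0 hGfix (pow_ne_zero n hψ.1) (fixed_pow hψfix n),
        delta_pow hψ.1 hψfix]
      rw [delta]
      ring
    rw [hδG]
    exact dvd_sub hδ (dvd_mul_right _ _)
  · have hunit : T.RegUnit y (algebraMap Qb F (L.π ^ (-ordAt T L false G)) * G) := by
      refine T.regUnit_of_vord (π := L.π) (mul_ne_zero ((map_ne_zero _).2
        (zpow_ne_zero _ L.ne_zero)) hG0) (fun P hP => ?_) fun i hi => ?_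
      · rw [P.ord_mul ((map_ne_zero _).2 (zpow_ne_zero _ L.ne_zero)) hG0,
          Curve.ord_algebraMap, hgen.2 P hP, Finsupp.zero_apply, zero_add]
      · cases i
        · exact vord_normalised (hv false)
        · exact absurd ⟨hy, hi⟩ hnode
    rw [normRes_eq (hv false), (hunit.ord_residueAt hy).2, mul_zero]
    exact dvd_zero _

include hcm hm in
/-- **Residual divisibility.** -/
theorem dvd_ord_normRes (hq : q.Prime) (hn : n ≠ 0) (hss : ∀ g, T.swap (T.swap g) = g)
    (hf : Kummer T L n x f) (hδ : (n : ℤ) ∣ delta T L f) (i : Bool)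
    (Q : Place (ResidueField A) Fb) :
    (n : ℤ) ∣ (c : ℤ) * (L.e : ℤ) * Q.ord (normRes T L i f) := by
  cases i
  · exact dvd_ord_normRes_false hcm hm hq hn hf hδ Q
  · have h := dvd_ord_normRes_false hcm hm hq hn hf.swap
      (by rw [delta_swap hf.ne_zero hf.fixed hss]; exact dvd_neg.2 hδ) Q
    rwa [normRes_swap hf.ne_zero hf.fixed] at h

end Fermat.Agent.BadPrime.Mazur.Local
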