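import Fermat.Agent.BadPrime.Mazur.Local.NormPlaces
import Fermat.Agent.BadPrime.GaussBaseField
import Fermat.Agent.BadPrime.JacobianKummer
import Fermat.Agent.LevelP.X0.FieldsAux
import Fermat.Agent.Reduction.Congruence
import Fermat.Agent.Reduction.AuxPullback
import Fermat.Agent.Reduction.PlaceReduction
import Fermat.Prelude.Def_ModularCurve_HeckeModule

/-!
# Hecke correspondences, Kummer functions and reduction of divisors

The norm of a Kummer function is a Kummer function of the translate; the reduction of a Hecke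
translate of a divisor of degree zero depends only on the reduction, through the residual norm.
-/

set_option autoImplicit false
set_option synthInstance.maxHeartbeats 400000
set_option maxHeartbeats 800000
set_option linter.unusedSectionVars false

noncomputable section

open HahnSeries ModularCurve AlgebraicCurve IsLocalRing

namespace Fermat.Agent.BadPrime.Mazur.Local

open Fermat.Agent.Curve Fermat.Agent.Reduction Fermat.Agent.BadPrime

local notation "Qb" => AlgebraicClosure ℚ

local instance : Algebra.IsAlgebraic ℚ Qb := AlgebraicClosure.isAlgebraic ℚ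

/-- A fixed embedding of `ℚ̄` in `ℂ`. -/
def qbarToC : Qb →+* ℂ := (IsAlgClosed.lift (R := ℚ) (S := Qb) (M := ℂ)).toRingHom

section AnyLevel

variable (N l : ℕ) [NeZero N] [NeZero l]

/-- The correspondence `T_l` on divisors. -/
def heckeDiv : Divisor Qb (modularFunctionFieldBar N) →+ Divisor Qb (modularFunctionFieldBar N) :=
  heckeDivBar (isIntegralAlong (heckeAlphaBar Qb N l)) (isIntegralAlong (heckeBetaBar Qb N l))

theorem heckeDiv_mem_degZero {D : Divisor Qb (modularFunctionFieldBar N)}
    (hD : D ∈ Divisor.degZero (K := Qb) (F := modularFunctionFieldBar N)) :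
    heckeDiv N l D ∈ Divisor.degZero (K := Qb) (F := modularFunctionFieldBar N) :=
  Divisor.correspondence_mem_degZero _ _ _ _ (fundamentalIdentityAlong _ _) hD

theorem heckeOperatorBar_mk (hl : l.Prime)
    (D : Divisor.degZero (K := Qb) (F := modularFunctionFieldBar N)) :
    heckeOperatorBar N ⟨l, hl⟩ (Pic0.mk D) =
      Pic0.mk ⟨heckeDiv N l D, heckeDiv_mem_degZero N l D.2⟩ := by
  show heckeOperatorAlong Qb N l (Pic0.mk D) = _
  rw [heckeOperatorAlong_eq (isIntegralAlong (heckeAlphaBar Qb N l))
    (isIntegralAlong (heckeBetaBar Qb N l)) (fundamentalIdentityAlong _ _) (finiteAlong _)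
    (normFormulaAlong _ _)]
  rfl

theorem heckeDiv_apply_eq_ord {f : modularFunctionFieldBar N} (hf : f ≠ 0)
    {E : Divisor Qb (modularFunctionFieldBar N)} (hE : ∀ P, E P = P.ord f)
    (P : Place Qb (modularFunctionFieldBar N)) : heckeDiv N l E P = P.ord (heckeNorm N l f) :=
  heckeDivBar_apply_eq_ord_norm _ _ (finiteAlong _) (normFormulaAlong _ _) hf hE P

theorem isKummerFun_heckeNorm (hl : l.Prime) {n : ℕ} {x : JZero N} {f : modularFunctionFieldBar N}
    (hf : IsKummerFun n x f) :
    IsKummerFun n (heckeOperatorBar N ⟨l, hl⟩ x) (heckeNorm N l f) := by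
  obtain ⟨hf0, D, rfl, hD⟩ := hf
  refine ⟨heckeNorm_ne_zero N l (finiteAlong _) hf0, _, (heckeOperatorBar_mk N l hl D).symm,
    fun P => ?_⟩
  have h := heckeDiv_apply_eq_ord N l hf0
    (E := (n : ℤ) • (D : Divisor Qb (modularFunctionFieldBar N)))
    (fun Q => by rw [Finsupp.smul_apply, smul_eq_mul, hD]) P
  rwa [map_zsmul, Finsupp.smul_apply, smul_eq_mul] at h

theorem heckeNorm_algebraMap (hl : l.Prime) (hlN : ¬ l ∣ N) (c : Qb) :
    heckeNorm N l (algebraMap Qb (modularFunctionFieldBar N) c) =
      algebraMap Qb (modularFunctionFieldBar N) (c ^ (l + 1)) := by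
  have hdeg := finrankAlong_heckeAlphaBar_of_embedding qbarToC N l hl hlN
  let := algebraAlong (heckeAlphaBar Qb N l)
  have := isScalarTower_along (heckeAlphaBar Qb N l)
  show Algebra.norm (modularFunctionFieldBar N) (heckeBetaBar Qb N l
    (algebraMap Qb (modularFunctionFieldBar N) c)) = _
  rw [AlgHom.commutes, IsScalarTower.algebraMap_apply Qb (modularFunctionFieldBar N)
    (modularFunctionFieldBar (N * l)), Algebra.norm_algebraMap, map_pow]
  exact congrArg _ hdeg

end AnyLevel

theorem mapDomain_eq_of_integral {K : Type*} [Field K] [Algebra ℚ K] [IsAlgClosed K]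
    {B : ValuationSubring K} {k : Type*} [Field k] {π : B →+* k} {N : ℕ}
    [IsFunctionField1 K (laurentBaseChange K (modularFunctionFieldFull N))]
    (hgen : PrincipalGeneratedByIntegral B π N)
    (r : Place K (laurentBaseChange K (modularFunctionFieldFull N)) →
      Place k (modularFunctionFieldFullC k N))
    (T : Divisor K (laurentBaseChange K (modularFunctionFieldFull N)) →+
      Divisor K (laurentBaseChange K (modularFunctionFieldFull N)))
    (hT : ∀ P, 0 ≤ T (Finsupp.single P 1)) {ι : Type*} [Fintype ι] (e : ℕ) (c : ι → ℕ)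
    (Q : ι → Place k (modularFunctionFieldFullC k N)) (R : Place k (modularFunctionFieldFullC k N))
    (h : ∀ E ∈ integralPrincipalDivisors B π N,
      (e : ℤ) * Finsupp.mapDomain r (T E) R = ∑ o, (c o : ℤ) * Finsupp.mapDomain r E (Q o))
    {D : Divisor K (laurentBaseChange K (modularFunctionFieldFull N))}
    (hD : Divisor.degree D = 0) :
    (e : ℤ) * Finsupp.mapDomain r (T D) R = ∑ o, (c o : ℤ) * Finsupp.mapDomain r D (Q o) := by
  classical
  let ev : Place k (modularFunctionFieldFullC k N) →
      Divisor K (laurentBaseChange K (modularFunctionFieldFull N)) →+ ℤ := fun P =>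
    (Finsupp.applyAddHom (M := ℤ) P).comp (reductionDivAlong r)
  let lam : Divisor K (laurentBaseChange K (modularFunctionFieldFull N)) →+ ℤ :=
    (e : ℤ) • (ev R).comp T - ∑ o, (c o : ℤ) • ev (Q o)
  have hlam : ∀ E, lam E = (e : ℤ) * Finsupp.mapDomain r (T E) R -
      ∑ o, (c o : ℤ) * Finsupp.mapDomain r E (Q o) := fun E => by
    simp [lam, ev, reductionDivAlong_apply]
  have h0 : lam D = 0 := by
    refine hom_apply_eq_zero_of_degree_eq_zero (fun P => one_le_deg P) weakRiemann lam
      (fun E hE => ?_) (M := ∑ o, (c o : ℤ)) (fun P => ?_) hD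
    · refine eq_on_principal_of_eq_on_integral hgen lam 0 (fun E hE => ?_) hE
      rw [hlam, h E hE, sub_self, AddMonoidHom.zero_apply]
    · have h1 : 0 ≤ Finsupp.mapDomain r (T (Finsupp.single P 1)) R := mapDomain_nonneg (hT P) R
      have h2 : ∀ o, (c o : ℤ) * Finsupp.mapDomain r (Finsupp.single P 1) (Q o) ≤ c o := by
        intro o
        rw [Finsupp.mapDomain_single, Finsupp.single_apply]
        split_ifs <;> simp
      rw [hlam]
      have := Finset.sum_le_sum (s := Finset.univ) fun o _ => h2 o
      nlinarith [mul_nonneg (Int.natCast_nonneg e) h1]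
  rwa [hlam, sub_eq_zero] at h0

section Reduction

variable {q : ℕ} [Fact q.Prime] {M : ℕ} [NeZero M] (hqM : ¬ q ∣ M) {A : ValuationSubring Qb}
  (hA : A.LiesOverPrime q)

variable (M A) in
/-- A map of places compatible with Gauss reductions. -/
def IsGaussPlaceMap (r : Place Qb (modularFunctionFieldBar M) →
    Place (ResidueField A) (modularFunctionFieldFullC (ResidueField A) M)) : Prop :=
  ∀ (f : modularFunctionFieldBar M) (g : modularFunctionFieldFullC (ResidueField A) M),
    HasGaussRed (residue A) (f : LaurentSeries Qb) (g : LaurentSeries (ResidueField A)) → g ≠ 0 →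
    ∀ D : Divisor Qb (modularFunctionFieldBar M), (∀ P, D P = P.ord f) →
      ∀ Q, Finsupp.mapDomain r D Q = Q.ord g

include hqM hA in
theorem exists_residual_heckeNorm {l : ℕ} [NeZero l] (hl : l.Prime) (hlM : ¬ l ∣ M) (u : Aˣ)
    (hu : IsPrimitiveRoot (Units.map A.subtype.toMonoidHom u) l)
    {f : modularFunctionFieldBar M} {g : LaurentSeries (ResidueField A)}
    (hfg : HasGaussRed (residue A) (f : LaurentSeries Qb) g) (hg : g ≠ 0) :
    ∃ g₁ : modularFunctionFieldFullC (ResidueField A) M, g₁ ≠ 0 ∧
      HasGaussRed (residue A) ((heckeNorm M l f : modularFunctionFieldBar M) : LaurentSeries Qb)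
        (g₁ : LaurentSeries (ResidueField A)) ∧
      IsResNorm l (Units.map (residue A).toMonoidHom u) g
        (g₁ : LaurentSeries (ResidueField A)) := by
  have := EC.isAlgClosed_residueField A
  obtain ⟨g₁, h₁, hn₁⟩ :=
    exists_hasGaussRed_heckeNorm (N := M) hl hlM qbarToC u hu (f := f) hfg hg
  exact ⟨⟨g₁, hasGaussRed_mem_fullC IsLocalRing.residue_surjective
      (LevelP.X0.hasFullResidueDegree_qbar A hqM hA) h₁⟩,
    fun h0 => hn₁.ne_zero hg (congrArg Subtype.val h0), h₁, hn₁⟩

include hqM hA in
theorem integral_formula {r : Place Qb (modularFunctionFieldBar M) →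
      Place (ResidueField A) (modularFunctionFieldFullC (ResidueField A) M)}
    (hr : IsGaussPlaceMap M A r) {l : ℕ} [NeZero l] (hl : l.Prime) (hlM : ¬ l ∣ M) (u : Aˣ)
    (hu : IsPrimitiveRoot (Units.map A.subtype.toMonoidHom u) l)
    {e : ℕ} {c : Option (Fin l) → ℕ}
    {Q : Option (Fin l) → Place (ResidueField A) (modularFunctionFieldFullC (ResidueField A) M)}
    {R : Place (ResidueField A) (modularFunctionFieldFullC (ResidueField A) M)}
    (hform : ∀ g g' : modularFunctionFieldFullC (ResidueField A) M, g ≠ 0 →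
      IsResNorm l (Units.map (residue A).toMonoidHom u) (g : LaurentSeries (ResidueField A))
        (g' : LaurentSeries (ResidueField A)) →
      (e : ℤ) * R.ord g' = ∑ o, (c o : ℤ) * (Q o).ord g)
    {E : Divisor Qb (modularFunctionFieldBar M)}
    (hE : E ∈ integralPrincipalDivisors A (residue A) M) :
    (e : ℤ) * Finsupp.mapDomain r (heckeDiv M l E) R =
      ∑ o, (c o : ℤ) * Finsupp.mapDomain r E (Q o) := by
  obtain ⟨y, hy, hyk, hne, hEy⟩ := hE
  have hy0 : (⟨coeffMap A.subtype y, hy⟩ : modularFunctionFieldBar M) ≠ 0 := fun h0 => hne (by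
    have h1 : coeffMap A.subtype y = 0 := congrArg Subtype.val h0
    rw [coeffMap_subtype_injective (A := A) (h1.trans (map_zero _).symm), map_zero])
  obtain ⟨g₁, hg₁0, hg₁, hn₁⟩ := exists_residual_heckeNorm hqM hA hl hlM u hu
    (f := ⟨coeffMap A.subtype y, hy⟩) (hasGaussRed_coeffMap (π := residue A) y) hne
  have hg0 : (⟨coeffMap (residue A) y, hyk⟩ :
      modularFunctionFieldFullC (ResidueField A) M) ≠ 0 := fun h0 => hne (congrArg Subtype.val h0)
  have hr1 := hr _ _ hg₁ hg₁0 _ (heckeDiv_apply_eq_ord M l hy0 hEy) R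
  have hr2 := hr ⟨_, hy⟩ ⟨_, hyk⟩ (hasGaussRed_coeffMap (π := residue A) y) hg0 E hEy
  rw [hr1, hform _ g₁ hg0 hn₁]
  exact Finset.sum_congr rfl fun o _ => by rw [hr2]

include hqM hA in
/-- **Reduction of Hecke translates.** -/
theorem mapDomain_heckeDiv {r : Place Qb (modularFunctionFieldBar M) →
      Place (ResidueField A) (modularFunctionFieldFullC (ResidueField A) M)}
    (hr : IsGaussPlaceMap M A r) {l : ℕ} [NeZero l] (hl : l.Prime) (hlM : ¬ l ∣ M) (u : Aˣ)
    (hu : IsPrimitiveRoot (Units.map A.subtype.toMonoidHom u) l)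
    {D : Divisor Qb (modularFunctionFieldBar M)} (hD : Divisor.degree D = 0)
    {g g' : modularFunctionFieldFullC (ResidueField A) M} (hg : g ≠ 0)
    (hDg : ∀ Q, Finsupp.mapDomain r D Q = Q.ord g)
    (h : IsResNorm l (Units.map (residue A).toMonoidHom u) (g : LaurentSeries (ResidueField A))
      (g' : LaurentSeries (ResidueField A)))
    (R : Place (ResidueField A) (modularFunctionFieldFullC (ResidueField A) M)) :
    Finsupp.mapDomain r (heckeDiv M l D) R = R.ord g' := by
  have := EC.isAlgClosed_residueField A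
  have hul : u ^ l = 1 := by
    have h1 : (Units.map A.subtype.toMonoidHom u) ^ l = 1 := hu.pow_eq_one
    rw [← map_pow] at h1
    exact Units.map_injective (f := A.subtype.toMonoidHom) Subtype.val_injective
      (h1.trans (map_one _).symm)
  have hζ : (Units.map (residue A).toMonoidHom u) ^ l = 1 := by rw [← map_pow, hul, map_one]
  obtain ⟨e, c, Q, he, hform⟩ := exists_ord_formula M l hζ R
  have h0 := mapDomain_eq_of_integral (principalGeneratedByIntegral M hqM A hA) r (heckeDiv M l)
    (fun P => correspondence_single_nonneg _ _ _ _ P) e c Q R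
    (fun E hE => integral_formula hqM hA hr hl hlM u hu hform hE) hD
  simp only [hDg] at h0
  rw [← hform g g' hg h] at h0
  exact mul_left_cancel₀ (Int.natCast_ne_zero.2 he.ne') h0

end Reduction

end Fermat.Agent.BadPrime.Mazur.Local
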