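import Fermat.Agent.BadPrime.Mazur.Local.Divisible
import Fermat.Agent.BadPrime.Mazur.Local.RedHecke
import Fermat.Agent.LevelP.X0.SwapHecke

/-!
# The norm along a Hecke correspondence on the two components of `X₀(Mq)`

The norm commutes with Galois and with the Atkin–Lehner involution at `q`, so it preserves fixed
functions, multiplies both orders by `l + 1` and acts on both normalised residues by the residual
norm.  In particular `T_l` multiplies the slope by `l + 1`.
-/

set_option autoImplicit false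
set_option synthInstance.maxHeartbeats 400000
set_option maxHeartbeats 800000
set_option linter.unusedSectionVars false

noncomputable section

open HahnSeries ModularCurve AlgebraicCurve IsLocalRing

namespace Fermat.Agent.BadPrime.Mazur.Local

open Fermat.Agent.Curve Fermat.Agent.BadPrime Fermat.Agent.LevelP Fermat.Agent.LevelP.TwoCompData

local notation "Qb" => AlgebraicClosure ℚ
local notation "Γℚ" => (AlgebraicClosure ℚ ≃ₐ[ℚ] AlgebraicClosure ℚ)

local instance : Algebra.IsAlgebraic ℚ Qb := AlgebraicClosure.isAlgebraic ℚ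

section AnyLevel

variable (N l : ℕ) [NeZero N] [NeZero l]

/-- Automorphisms intertwining both degeneracy maps commute with the norm. -/
theorem heckeNorm_intertwine (e : modularFunctionFieldBar N ≃+* modularFunctionFieldBar N)
    (e' : modularFunctionFieldBar (N * l) ≃+* modularFunctionFieldBar (N * l))
    (hα : ∀ x, e' (heckeAlphaBar Qb N l x) = heckeAlphaBar Qb N l (e x))
    (hβ : ∀ x, e' (heckeBetaBar Qb N l x) = heckeBetaBar Qb N l (e x))
    (x : modularFunctionFieldBar N) : heckeNorm N l (e x) = e (heckeNorm N l x) := by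
  let := algebraAlong (heckeAlphaBar Qb N l)
  refine Eq.symm (Eq.trans (congrArg e (Algebra.norm_eq_of_equiv_equiv e e'
    (RingHom.ext fun y => (hα y).symm) (heckeBetaBar Qb N l x))) ?_)
  rw [RingEquiv.apply_symm_apply, hβ]
  rfl

theorem heckeNorm_galois (σ : Γℚ) (x : modularFunctionFieldBar N) :
    heckeNorm N l (arithmeticGalois (modularFunctionFieldFull N) σ • x) =
      arithmeticGalois (modularFunctionFieldFull N) σ • heckeNorm N l x :=
  heckeNorm_intertwine N l
    (SemilinearAut.toRingAut (arithmeticGalois (modularFunctionFieldFull N) σ))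
    (SemilinearAut.toRingAut (arithmeticGalois (modularFunctionFieldFull (N * l)) σ))
    (EichlerShimura.heckeAlphaBar_intertwines N l σ) (EichlerShimura.heckeBetaBar_intertwines N l σ)
    x

end AnyLevel

variable {q : ℕ} [Fact q.Prime] {M : ℕ} [NeZero M]

theorem heckeNorm_swap (hqM : ¬ q ∣ M) (l : ℕ) [NeZero l] (hql : ¬ q ∣ l)
    (x : modularFunctionFieldBar (M * q)) :
    heckeNorm (M * q) l (X0.swap q M x) = X0.swap q M (heckeNorm (M * q) l x) := by
  obtain ⟨w', h1, h2⟩ := X0.exists_swap_lift q M hqM l hql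
  exact heckeNorm_intertwine (M * q) l (X0.swap q M).toRingEquiv w'.toRingEquiv h1 h2 x

/-- A primitive root of unity of order `l` among the units of a valuation ring of `ℚ̄`. -/
theorem exists_rootUnit (A : ValuationSubring Qb) {l : ℕ} (hl : l.Prime) :
    ∃ u : Aˣ, IsPrimitiveRoot (Units.map A.subtype.toMonoidHom u) l := by
  have : NeZero (l : Qb) := ⟨Nat.cast_ne_zero.2 hl.ne_zero⟩
  obtain ⟨z, hz⟩ := HasEnoughRootsOfUnity.exists_primitiveRoot Qb l
  have hzA : z ∈ A := A.valuation_le_one_iff _ |>.1 <| le_of_eq <|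
    (pow_eq_one_iff.1 (show A.valuation z ^ l = 1 by
      rw [← map_pow, hz.pow_eq_one, map_one])).resolve_right hl.ne_zero
  obtain ⟨u, hu⟩ := IsUnit.of_pow_eq_one (M := A) (a := ⟨z, hzA⟩) (Subtype.ext hz.pow_eq_one)
    hl.ne_zero
  refine ⟨u, IsPrimitiveRoot.coe_units_iff.mp ?_⟩
  show IsPrimitiveRoot ((u : A) : Qb) l
  rw [hu]
  exact hz

/-- The compatibility of two-component data with Gauss reductions, Galois and Atkin–Lehner. -/
structure IsX0Data {A : ValuationSubring Qb} (T : TwoCompData q A (modularFunctionFieldBar (M * q))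
    (modularFunctionFieldFullC (ResidueField A) M)) : Prop where
  not_dvd : ¬ q ∣ M
  liesOver : A.LiesOverPrime q
  act_eq : T.act = X0.act q M
  swap_eq : T.swap = X0.swap q M
  red_iff : ∀ (f : modularFunctionFieldBar (M * q))
    (g : modularFunctionFieldFullC (ResidueField A) M),
    (∃ h : f ∈ T.V false, T.red false ⟨f, h⟩ = g) ↔
      HasGaussRed (residue A) (f : LaurentSeries Qb) (g : LaurentSeries (ResidueField A))

variable {A : ValuationSubring Qb} {T : TwoCompData q A (modularFunctionFieldBar (M * q))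
    (modularFunctionFieldFullC (ResidueField A) M)} (hT : IsX0Data T) {L : Level q A}
  {f : modularFunctionFieldBar (M * q)} {l : ℕ} [NeZero l] (hl : l.Prime) (hlN : ¬ l ∣ M * q)

include hT in
theorem IsX0Data.swap_swap (g : modularFunctionFieldBar (M * q)) : T.swap (T.swap g) = g := by
  rw [hT.swap_eq]
  exact (X0.swap_spec q M hT.not_dvd).2.2 g

include hT in
theorem IsX0Data.valuation_eq_one {g : modularFunctionFieldFullC (ResidueField A) M} (hg : g ≠ 0)
    (h : HasGaussRed (residue A) (f : LaurentSeries Qb) (g : LaurentSeries (ResidueField A))) :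
    (T.V false).valuation f = 1 ∧ T.residueAt false f = g := by
  obtain ⟨hf, hfg⟩ := (hT.red_iff f g).2 h
  have hg' : (g : LaurentSeries (ResidueField A)) ≠ 0 := fun h0 => hg (Subtype.ext h0)
  have hf0 : f ≠ 0 := fun h0 => hg' (by
    subst h0
    exact h.unique (by simpa using hasGaussRed_zero))
  obtain ⟨hf', -⟩ := (hT.red_iff f⁻¹ g⁻¹).2 (by simpa using h.inv hg')
  exact ⟨(valuation_eq_one_iff _ hf0).2 ⟨hf, hf'⟩, by rw [residueAt_of_mem T hf, hfg]⟩

include hT in
theorem IsX0Data.fixed_heckeNorm {H : Subgroup Γℚ} (hf : T.Fixed H f) :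
    T.Fixed H (heckeNorm (M * q) l f) := by
  intro σ hσ
  rw [hT.act_eq]
  show arithmeticGalois (modularFunctionFieldFull (M * q)) σ • _ = _
  rw [← heckeNorm_galois]
  refine congrArg _ ?_
  have h := hf σ hσ
  rwa [hT.act_eq] at h

include hT hl hlN in
theorem IsX0Data.vord_heckeNorm_false (u : Aˣ)
    (hu : IsPrimitiveRoot (Units.map A.subtype.toMonoidHom u) l) {a : ℤ}
    (h : T.VOrd L.π false f a) :
    T.VOrd L.π false (heckeNorm (M * q) l f) (((l : ℤ) + 1) * a) ∧
      IsResNorm l (Units.map (residue A).toMonoidHom u)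
        ((normRes T L false f : modularFunctionFieldFullC (ResidueField A) M) :
          LaurentSeries (ResidueField A))
        ((normRes T L false (heckeNorm (M * q) l f) : modularFunctionFieldFullC (ResidueField A) M) :
          LaurentSeries (ResidueField A)) := by
  have := EC.isAlgClosed_residueField A
  set f₀ := algebraMap Qb (modularFunctionFieldBar (M * q)) (L.π ^ (-a)) * f with hf₀def
  have h₀ := vord_normalised h
  have hg0 : normRes T L false f ≠ 0 := normRes_ne_zero h
  have hV := T.mem_of_valuation_eq_one h₀.valuation_eq_one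
  have hgauss : HasGaussRed (residue A) (f₀ : LaurentSeries Qb)
      ((normRes T L false f : modularFunctionFieldFullC (ResidueField A) M) :
          LaurentSeries (ResidueField A)) :=
    (hT.red_iff f₀ _).1 ⟨hV, by rw [normRes_eq h, residueAt_of_mem T hV]⟩
  have hg0' : ((normRes T L false f : modularFunctionFieldFullC (ResidueField A) M) :
          LaurentSeries (ResidueField A)) ≠ 0 :=
    fun h0 => hg0 (Subtype.ext h0)
  obtain ⟨g', hg', hn⟩ := exists_hasGaussRed_heckeNorm (N := M * q) hl hlN qbarToC u hu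
    (f := f₀) hgauss hg0'
  have hmem := X0.hasGaussRed_mem_fullC A q M hT.not_dvd hT.liesOver hg'
  obtain ⟨hv, hres⟩ := hT.valuation_eq_one (g := ⟨g', hmem⟩)
    (fun h0 => hn.ne_zero hg0' (congrArg Subtype.val h0)) hg'
  have he : heckeNorm (M * q) l f₀ = algebraMap Qb (modularFunctionFieldBar (M * q))
      (L.π ^ (-(((l : ℤ) + 1) * a))) * heckeNorm (M * q) l f := by
    rw [hf₀def, heckeNorm_mul, heckeNorm_algebraMap _ _ hl hlN]
    congr 2
    rw [← zpow_natCast, ← zpow_mul]
    congr 1
    push_cast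
    ring
  have hVN : T.VOrd L.π false (heckeNorm (M * q) l f) (((l : ℤ) + 1) * a) := by
    rw [vord_iff, ← he]
    exact hv
  refine ⟨hVN, ?_⟩
  rwa [normRes_eq hVN, ← he, hres]

include hT hl hlN in
/-- **The norm on the components.** -/
theorem IsX0Data.heckeNorm_local (u : Aˣ)
    (hu : IsPrimitiveRoot (Units.map A.subtype.toMonoidHom u) l) (hf : f ≠ 0)
    (hfix : T.Fixed L.H f) (i : Bool) :
    ordAt T L i (heckeNorm (M * q) l f) = ((l : ℤ) + 1) * ordAt T L i f ∧
      IsResNorm l (Units.map (residue A).toMonoidHom u)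
        ((normRes T L i f : modularFunctionFieldFullC (ResidueField A) M) :
          LaurentSeries (ResidueField A))
        ((normRes T L i (heckeNorm (M * q) l f) : modularFunctionFieldFullC (ResidueField A) M) :
          LaurentSeries (ResidueField A)) := by
  cases i
  · obtain ⟨h1, h2⟩ := hT.vord_heckeNorm_false hl hlN u hu (vord_ordAt (i := false) hf hfix)
    exact ⟨ordAt_eq h1, h2⟩
  · have hql : ¬ q ∣ l := fun hd => hlN (by
      rw [(Nat.prime_dvd_prime_iff_eq Fact.out hl).1 hd]; exact dvd_mul_left l M)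
    have hN : heckeNorm (M * q) l (T.swap f) = T.swap (heckeNorm (M * q) l f) := by
      rw [hT.swap_eq]; exact heckeNorm_swap hT.not_dvd l hql f
    obtain ⟨h1, h2⟩ :=
      hT.vord_heckeNorm_false hl hlN u hu (vord_swap_iff.2 (vord_ordAt (i := true) hf hfix))
    rw [hN] at h1 h2
    refine ⟨ordAt_eq (vord_swap_iff.1 h1), ?_⟩
    rwa [normRes_swap hf hfix, normRes_swap (heckeNorm_ne_zero _ _ (finiteAlong _) hf)
      (hT.fixed_heckeNorm hfix)] at h2

include hT hl hlN in
theorem IsX0Data.delta_heckeNorm (hf : f ≠ 0) (hfix : T.Fixed L.H f) :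
    delta T L (heckeNorm (M * q) l f) = ((l : ℤ) + 1) * delta T L f := by
  obtain ⟨u, hu⟩ := exists_rootUnit A hl
  rw [delta, delta, (hT.heckeNorm_local hl hlN u hu hf hfix true).1,
    (hT.heckeNorm_local hl hlN u hu hf hfix false).1]
  ring

variable {n : ℕ}

include hT hl in
theorem IsX0Data.kummer_heckeNorm {x : JZero (M * q)} (hf : Kummer T L n x f) :
    Kummer T L n (heckeOperatorBar (M * q) ⟨l, hl⟩ x) (heckeNorm (M * q) l f) :=
  ⟨hT.fixed_heckeNorm hf.fixed, isKummerFun_heckeNorm _ _ hl hf.isKummerFun⟩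

include hT in
theorem IsX0Data.mem_fixedClasses_hecke (ℓ : Nat.Primes) {x : JZero (M * q)}
    (hx : x ∈ fixedClasses T L n) : heckeOperatorBar (M * q) ℓ x ∈ fixedClasses T L n := by
  refine ⟨by rw [← map_nsmul, hx.1, map_zero], fun σ hσ => ?_⟩
  have h := hx.2 σ hσ
  rw [hT.act_eq] at h ⊢
  show σ • heckeOperatorBar (M * q) ℓ x = _
  rw [EichlerShimura.galois_smul_heckeOperatorBar]
  exact congrArg _ h

include hT in
/-- **The slope clause.** -/
theorem IsX0Data.slopeHom_hecke [NeZero n] (ℓ : Nat.Primes) (hℓ : ¬ (ℓ : ℕ) ∣ M * q)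
    (x y : fixedClasses T L n)
    (hy : (y : JZero (M * q)) = heckeOperatorBar (M * q) ℓ (x : JZero (M * q))) :
    slopeHom T L n y = (((ℓ : ℕ) : ZMod n) + 1) * slopeHom T L n x := by
  have : NeZero (ℓ : ℕ) := ⟨ℓ.2.ne_zero⟩
  obtain ⟨f, hf⟩ := exists_kummer x.2
  have hk : Kummer T L n (y : JZero (M * q)) (heckeNorm (M * q) (ℓ : ℕ) f) := by
    rw [hy]
    exact hT.kummer_heckeNorm ℓ.2 hf
  rw [slopeHom_eq hk, slopeHom_eq hf, hT.delta_heckeNorm ℓ.2 hℓ hf.ne_zero hf.fixed]
  push_cast
  ring

end Fermat.Agent.BadPrime.Mazur.Local
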