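import Fermat.Agent.BadPrime.Mazur.Local.Hecke
import Fermat.Agent.BadPrime.Mazur.Local.Defs
import Fermat.Agent.LevelP.Ordinary.Residual
import Fermat.Agent.LevelP.X0.Main

/-!
# The two-component data of `X₀(Mq)` on the unramified torsion

The constants are those of the maximal unramified field, so torsion fixed by an extension unramified
at `q` lies in `fixedClasses`; the involution of the Jacobian is induced by the swap.
-/

set_option autoImplicit false
set_option synthInstance.maxHeartbeats 400000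
set_option maxHeartbeats 800000
set_option linter.unusedSectionVars false

noncomputable section

open HahnSeries ModularCurve AlgebraicCurve IsLocalRing

namespace Fermat.Agent.BadPrime.Mazur.Local

open Fermat.Agent.Curve Fermat.Agent.BadPrime Fermat.Agent.LevelP Fermat.Agent.LevelP.TwoCompData

local notation "Qb" => AlgebraicClosure ℚ
local notation "Γℚ" => (AlgebraicClosure ℚ ≃ₐ[ℚ] AlgebraicClosure ℚ)

local instance : Algebra.IsAlgebraic ℚ Qb := AlgebraicClosure.isAlgebraic ℚ

variable {q M : ℕ} [Fact q.Prime] [NeZero M]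

/-- The Atkin–Lehner involution on the Jacobian of `X₀(Mq)`. -/
def swapJ (q M : ℕ) [Fact q.Prime] [NeZero M] : JZero (M * q) →+ JZero (M * q) :=
  DistribSMul.toAddMonoidHom (JZero (M * q)) (SemilinearAut.ofAlgAut (X0.swap q M))

theorem swapJ_apply (x : JZero (M * q)) :
    swapJ q M x = SemilinearAut.ofAlgAut (X0.swap q M) • x := rfl

theorem swapJ_swapJ (hqM : ¬ q ∣ M) (x : JZero (M * q)) : swapJ q M (swapJ q M x) = x := by
  rw [swapJ_apply, swapJ_apply, smul_smul, ← map_mul]
  have h : X0.swap q M * X0.swap q M = 1 :=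
    AlgEquiv.ext fun f => (X0.swap_spec q M hqM).2.2 f
  rw [h, map_one, one_smul]

theorem heckeOperatorBar_swapJ (hqM : ¬ q ∣ M) (ℓ : Nat.Primes) (hℓ : ¬ (ℓ : ℕ) ∣ M * q)
    (x : JZero (M * q)) :
    heckeOperatorBar (M * q) ℓ (swapJ q M x) = swapJ q M (heckeOperatorBar (M * q) ℓ x) :=
  X0.heckeOperatorBar_swap_smul q M hqM ℓ (fun h => hℓ (h ▸ dvd_mul_left _ M)) x

variable {A : ValuationSubring Qb} {T : TwoCompData q A (modularFunctionFieldBar (M * q))
    (modularFunctionFieldFullC (ResidueField A) M)}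

/-- The data of `X0.exists_twoCompData'`, with the thickness of the nodes left to the caller. -/
theorem exists_isX0Data (hN : (q = 2 → 3 ∣ M) ∧ (q = 3 → 2 ∣ M)) (hqM : ¬ q ∣ M)
    (hA : A.LiesOverPrime q) [IsAlgClosed (ResidueField A)] :
    ∃ T : TwoCompData q A (modularFunctionFieldBar (M * q))
        (modularFunctionFieldFullC (ResidueField A) M),
      IsX0Data T ∧ (T.w : LaurentSeries Qb) = (X0.wSeries q Qb : LaurentSeries Qb) ∧
        ∀ y, T.On y false → T.IsNode y → 0 ≤ (T.loc y false).ord (X0.jResM A M) := by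
  obtain ⟨T, hact, hswap, hred, -, hnode, hw⟩ := X0.exists_twoCompData' A q M hN hqM hA
  exact ⟨T, ⟨hqM, hA, hact, hswap, hred⟩, hw, fun y hy hn => (hnode y hy).1 hn⟩

theorem IsX0Data.act_smul (hT : IsX0Data T) (σ : Γℚ) (x : JZero (M * q)) :
    T.act σ • x = σ • x := by
  rw [hT.act_eq]; rfl

theorem IsX0Data.swapJ_eq (hT : IsX0Data T) (x : JZero (M * q)) :
    swapJ q M x = SemilinearAut.ofAlgAut T.swap • x := by
  rw [hT.swap_eq]; rfl

theorem IsX0Data.smul_swapJ (hT : IsX0Data T) (σ : Γℚ) (x : JZero (M * q)) :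
    σ • swapJ q M x = swapJ q M (σ • x) := by
  rw [hT.swapJ_eq, hT.swapJ_eq, ← hT.act_smul, ← hT.act_smul σ x, smul_smul, smul_smul]
  refine congrArg (· • x) (Subtype.ext (Prod.ext (RingEquiv.ext fun f => ?_) ?_))
  · exact (T.swap_act σ f).symm
  · exact RingEquiv.ext fun _ => rfl

/-- Torsion fixed by an extension unramified at `q` is fixed by inertia. -/
theorem IsX0Data.mem_fixedClasses (hT : IsX0Data T) {n : ℕ} {K : IntermediateField ℚ Qb}
    (hI : ∀ τ ∈ A.inertiaSubgroupIn ℚ, τ ∈ K.fixingSubgroup) {x : JZero (M * q)}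
    (hn : n • x = 0) (hx : ∀ σ ∈ K.fixingSubgroup, σ • x = x) :
    x ∈ fixedClasses T (unramifiedLevel Fact.out hT.liesOver) n :=
  ⟨hn, fun σ hσ => by rw [hT.act_smul]; exact hx σ (hI σ hσ)⟩

theorem IsX0Data.fixedTorsion_le (hT : IsX0Data T) {n : ℕ} {K : IntermediateField ℚ Qb}
    (hI : ∀ τ ∈ A.inertiaSubgroupIn ℚ, τ ∈ K.fixingSubgroup) :
    fixedTorsion (M * q) n K ≤ fixedClasses T (unramifiedLevel Fact.out hT.liesOver) n :=
  fun _ hx => hT.mem_fixedClasses hI hx.1 hx.2

/-- The swap is an Atkin–Lehner involution. -/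
theorem isALInvolution_swap (hqM : ¬ q ∣ M) :
    IsALInvolution ((X0.swap q M : modularFunctionFieldBar (M * q) ≃ₐ[Qb]
      modularFunctionFieldBar (M * q)) :
        modularFunctionFieldBar (M * q) →ₐ[Qb] modularFunctionFieldBar (M * q)) :=
  ⟨(X0.swap_spec q M hqM).1, (X0.swap_spec q M hqM).2.1, (X0.swap_spec q M hqM).2.2⟩

end Fermat.Agent.BadPrime.Mazur.Local
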