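import Fermat.Agent.BadPrime.Mazur.Local.Orders

/-!
# Kummer functions fixed by inertia, and the slope of an inertia-fixed torsion class

A class `x` with `n • x = 0` fixed by the Galois group of the constants has a fixed Kummer function
`f`, unique up to fixed constants and `n`-th powers of fixed functions.  The slope is the difference
of the orders of `f` along the two components modulo `n`; a class lies in the reduced part `IsRed`
if moreover both normalised residues, raised to the power `c`, are `n`-th powers.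
-/

set_option autoImplicit false
set_option linter.unusedSectionVars false

noncomputable section

namespace Fermat.Agent.BadPrime.Mazur.Local

open AlgebraicCurve Fermat.Agent.Curve IsLocalRing Fermat.Agent.LevelP
  Fermat.Agent.LevelP.TwoCompData

local notation "Qb" => AlgebraicClosure ℚ
local notation "Γℚ" => (AlgebraicClosure ℚ ≃ₐ[ℚ] AlgebraicClosure ℚ)

theorem pic0Mk_sub {K F : Type*} [Field K] [Field F] [Algebra K F]
    (D E : Divisor.degZero (K := K) (F := F)) : Pic0.mk (D - E) = Pic0.mk D - Pic0.mk E := rfl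

variable {q : ℕ} {A : ValuationSubring Qb} {F : Type*} [Field F] [Algebra Qb F]
  [IsFunctionField1 Qb F] {Fb : Type*} [Field Fb] [Algebra (ResidueField A) Fb]
  (T : TwoCompData q A F Fb) (L : Level q A)

/-- A Kummer function of `x` fixed by the group of the constants. -/
structure Kummer (n : ℕ) (x : Pic0 Qb F) (f : F) : Prop where
  fixed : T.Fixed L.H f
  isKummerFun : IsKummerFun n x f

/-- The torsion classes fixed by the group of the constants. -/
def fixedClasses (n : ℕ) : AddSubgroup (Pic0 Qb F) where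
  carrier := {x | n • x = 0 ∧ ∀ σ ∈ L.H, T.act σ • x = x}
  zero_mem' := ⟨smul_zero _, fun σ _ => smul_zero (T.act σ)⟩
  add_mem' := fun {x y} hx hy => ⟨by rw [nsmul_add, hx.1, hy.1, add_zero],
    fun σ hσ => by rw [smul_add, hx.2 σ hσ, hy.2 σ hσ]⟩
  neg_mem' := fun {x} hx => ⟨by rw [neg_nsmul, hx.1, neg_zero],
    fun σ hσ => by rw [smul_neg, hx.2 σ hσ]⟩

variable {T L} {n : ℕ} {x y : Pic0 Qb F} {f g : F}

namespace Kummer

theorem ne_zero (h : Kummer T L n x f) : f ≠ 0 := h.isKummerFun.ne_zero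

theorem one : Kummer T L n (0 : Pic0 Qb F) (1 : F) :=
  ⟨fun _ _ => smul_one _, IsKummerFun.one⟩

theorem mul (hf : Kummer T L n x f) (hg : Kummer T L n y g) :
    Kummer T L n (x + y) (f * g) :=
  ⟨fixed_mul hf.fixed hg.fixed, hf.isKummerFun.mul hg.isKummerFun⟩

theorem inv (hf : Kummer T L n x f) : Kummer T L n (-x) f⁻¹ :=
  ⟨fixed_inv hf.fixed, hf.isKummerFun.inv⟩

theorem pow (hf : Kummer T L n x f) : ∀ m : ℕ, Kummer T L n (m • x) (f ^ m)
  | 0 => by rw [zero_nsmul, pow_zero]; exact one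
  | m + 1 => by rw [succ_nsmul, pow_succ]; exact (hf.pow m).mul hf

/-- An automorphism normalising the group of the constants transports Kummer functions. -/
theorem smul (hf : Kummer T L n x f) (s : SemilinearAut Qb F)
    (hs : ∀ g : F, T.Fixed L.H g → T.Fixed L.H (s • g)) : Kummer T L n (s • x) (s • f) :=
  ⟨hs f hf.fixed, hf.isKummerFun.smul s⟩

/-- The divisor of a fixed Kummer function is fixed. -/
theorem exists_divFixed (hn : n ≠ 0) (hf : Kummer T L n x f) :
    ∃ D : Divisor.degZero (K := Qb) (F := F), Pic0.mk D = x ∧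
      T.DivFixed L.H (D : Divisor Qb F) ∧
      ∀ P : Place Qb F, (n : ℤ) * (D : Divisor Qb F) P = P.ord f := by
  obtain ⟨hfix, hf0, D, hDx, hD⟩ := hf
  refine ⟨D, hDx, fun σ hσ => ?_, hD⟩
  ext P
  refine mul_left_cancel₀ (Int.natCast_ne_zero.2 hn) ?_
  rw [SemilinearAut.divisor_smul_apply, hD, hD]
  have h := SemilinearAut.ord_smul (T.act σ) ((T.act σ)⁻¹ • P) f
  rw [smul_inv_smul, hfix σ hσ] at h
  exact h.symm

end Kummer

/-- Fixed Kummer functions exist. -/
theorem exists_kummer (hx : x ∈ fixedClasses T L n) :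
    ∃ f, Kummer T L n x f := by
  obtain ⟨D, rfl⟩ := Pic0.mk_surjective x
  have hD : ∀ σ ∈ L.H, Divisor.IsPrincipal (T.act σ • (D : Divisor Qb F) - (D : Divisor Qb F)) := by
    intro σ hσ
    have h : Pic0.mk (SemilinearAut.degZeroSMulHom (T.act σ) D - D) = 0 := by
      have h2 := hx.2 σ hσ
      rw [SemilinearAut.pic0_smul_mk] at h2
      rw [pic0Mk_sub]
      exact sub_eq_zero.2 h2
    exact (pic0Mk_eq_zero_iff _).1 h
  obtain ⟨D', hD'fix, hD'⟩ := T.descend_class L.H L.le_inertia D (Divisor.mem_degZero.1 D.2) hD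
  have hdeg : Divisor.degree D' = 0 := by
    obtain ⟨u, hu, hDu⟩ := hD'
    obtain ⟨E, hE, hE0⟩ := HasPrincipalDivisors.exists_divisor (K := Qb) u hu
    have : D' - (D : Divisor Qb F) = E := Finsupp.ext fun P => (hDu P).trans (hE P).symm
    have h := congrArg Divisor.degree this
    rwa [map_sub, Divisor.mem_degZero.1 D.2, sub_zero, hE0] at h
  set D₁ : Divisor.degZero (K := Qb) (F := F) := ⟨D', Divisor.mem_degZero.2 hdeg⟩
  have hclass : Pic0.mk D₁ = Pic0.mk D := by
    rw [← sub_eq_zero, ← pic0Mk_sub]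
    exact (pic0Mk_eq_zero_iff _).2 hD'
  have hnD : Pic0.mk (n • D₁) = 0 := by
    show n • Pic0.mk D₁ = 0
    rw [hclass]
    exact hx.1
  obtain ⟨f, hf, hffix, hford⟩ := T.descend_principal L.H L.le_inertia
    ((n : ℤ) • D') (fun σ hσ => ((DistribMulAction.toAddMonoidHom (Divisor Qb F)
      (T.act σ)).map_zsmul (n : ℤ) D').trans (congrArg ((n : ℤ) • ·) (hD'fix σ hσ)))
    (by
      have h := (pic0Mk_eq_zero_iff _).1 hnD
      rw [AddSubgroupClass.coe_nsmul] at h
      rw [natCast_zsmul]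
      exact h)
  refine ⟨f, hffix, hf, D₁, hclass, fun P => ?_⟩
  rw [← hford P, Finsupp.smul_apply, smul_eq_mul]

/-- Fixed Kummer functions are unique up to fixed constants and fixed `n`-th powers. -/
theorem Kummer.unique (hn : n ≠ 0) (hf : Kummer T L n x f) (hg : Kummer T L n x g) :
    ∃ (c : Qb) (u : F), c ≠ 0 ∧ (∀ σ ∈ L.H, σ c = c) ∧ u ≠ 0 ∧ T.Fixed L.H u ∧
      g = algebraMap Qb F c * u ^ n * f := by
  obtain ⟨D, hDx, hDfix, hD⟩ := hf.exists_divFixed hn
  obtain ⟨E, hEx, hEfix, hE⟩ := hg.exists_divFixed hn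
  have hED : Divisor.IsPrincipal ((E : Divisor Qb F) - (D : Divisor Qb F)) := by
    refine (pic0Mk_eq_zero_iff (E - D)).1 ?_
    rw [pic0Mk_sub, hEx, hDx, sub_self]
  obtain ⟨u, hu, hufix, huord⟩ := T.descend_principal L.H L.le_inertia _
    (fun σ hσ => by rw [smul_sub, hDfix σ hσ, hEfix σ hσ]) hED
  have hden : u ^ n * f ≠ 0 := mul_ne_zero (pow_ne_zero n hu) hf.ne_zero
  obtain ⟨c, hc, hce⟩ := exists_algebraMap_eq_of_forall_ord_eq_zero (K := Qb)
    (f := g / (u ^ n * f)) (div_ne_zero hg.ne_zero hden) fun P => by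
      rw [Curve.ord_div P hg.ne_zero hden, P.ord_mul (pow_ne_zero n hu) hf.ne_zero,
        Curve.ord_pow, ← huord P, ← hD P, ← hE P, Finsupp.sub_apply]
      ring
  refine ⟨c, u, hc, fun σ hσ => (algebraMap Qb F).injective ?_, hu, hufix,
    by rw [mul_assoc, hce, div_mul_cancel₀ _ hden]⟩
  have h := fixed_div hg.fixed (fixed_mul (fixed_pow hufix n) hf.fixed) σ hσ
  rw [← hce, SemilinearAut.smul_algebraMap, T.baseAut_act] at h
  exact h

theorem Kummer.delta_eq (hn : n ≠ 0) (hf : Kummer T L n x f) (hg : Kummer T L n x g) :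
    ((delta T L g : ℤ) : ZMod n) = delta T L f := by
  obtain ⟨c, u, hc, hcfix, hu, hufix, rfl⟩ := hf.unique hn hg
  have h1 : algebraMap Qb F c ≠ 0 := (map_ne_zero _).2 hc
  have h2 := T.fixed_algebraMap (H := L.H) hcfix
  rw [delta_mul (mul_ne_zero h1 (pow_ne_zero n hu)) (fixed_mul h2 (fixed_pow hufix n))
      hf.ne_zero hf.fixed, delta_mul h1 h2 (pow_ne_zero n hu) (fixed_pow hufix n),
    delta_const hc hcfix, delta_pow hu hufix]
  simp

section Slope

variable (T L n)

/-- The slope of a class. -/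
def slopeOf [NeZero n] (x : fixedClasses T L n) : ZMod n :=
  ((delta T L (exists_kummer x.2).choose : ℤ) : ZMod n)

/-- The slope, as a homomorphism. -/
def slopeHom [NeZero n] : fixedClasses T L n →+ ZMod n :=
  AddMonoidHom.mk' (slopeOf T L n) fun x y => by
    have hx := (exists_kummer x.2).choose_spec
    have hy := (exists_kummer y.2).choose_spec
    have hxy := (exists_kummer (x + y).2).choose_spec
    rw [slopeOf, (hx.mul hy).delta_eq (NeZero.ne n) hxy,
      delta_mul hx.ne_zero hx.fixed hy.ne_zero hy.fixed, Int.cast_add]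
    rfl

variable {T L n}

theorem slopeHom_eq [NeZero n] {x : fixedClasses T L n} (hf : Kummer T L n (x : Pic0 Qb F) f) :
    slopeHom T L n x = (delta T L f : ℤ) :=
  hf.delta_eq (NeZero.ne n) (exists_kummer x.2).choose_spec

end Slope

variable (T L n) in
/-- Slope zero and both normalised residues, to the power `c`, are `n`-th powers. -/
def IsRed [IsAlgClosed (ResidueField A)] (c : ℕ) (x : Pic0 Qb F) : Prop :=
  ∃ f, Kummer T L n x f ∧ (n : ℤ) ∣ delta T L f ∧ ∀ i, ∃ h : Fb, h ^ n = normRes T L i f ^ c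

section Red

variable [IsAlgClosed (ResidueField A)] {c : ℕ}

theorem IsRed.of_kummer (hn : n ≠ 0) (h : IsRed T L n c x) (hf : Kummer T L n x f) :
    (n : ℤ) ∣ delta T L f ∧ ∀ i, ∃ h : Fb, h ^ n = normRes T L i f ^ c := by
  obtain ⟨g, hg, hδ, hres⟩ := h
  obtain ⟨a, u, ha, hafix, hu, hufix, rfl⟩ := hg.unique hn hf
  have h1 : algebraMap Qb F a ≠ 0 := (map_ne_zero _).2 ha
  have h2 := T.fixed_algebraMap (H := L.H) hafix
  refine ⟨?_, fun i => ?_⟩
  · rw [delta_mul (mul_ne_zero h1 (pow_ne_zero n hu)) (fixed_mul h2 (fixed_pow hufix n))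
      hg.ne_zero hg.fixed, delta_mul h1 h2 (pow_ne_zero n hu) (fixed_pow hufix n),
      delta_const ha hafix, delta_pow hu hufix, zero_add]
    exact dvd_add (dvd_mul_right _ _) hδ
  · obtain ⟨d, -, hd⟩ := exists_normRes_const (T := T) ha hafix i
    obtain ⟨e, he⟩ := IsAlgClosed.exists_pow_nat_eq (d ^ c) (Nat.pos_of_ne_zero hn)
    obtain ⟨h, hh⟩ := hres i
    refine ⟨algebraMap _ Fb e * normRes T L i u ^ c * h, ?_⟩
    rw [normRes_mul' (mul_ne_zero h1 (pow_ne_zero n hu)) (fixed_mul h2 (fixed_pow hufix n))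
      hg.ne_zero hg.fixed, normRes_mul' h1 h2 (pow_ne_zero n hu) (fixed_pow hufix n),
      normRes_pow' hu hufix, mul_pow, mul_pow, mul_pow, mul_pow, ← map_pow, he, map_pow, hh, hd,
      ← pow_mul, ← pow_mul, mul_comm c n]

variable (T L n) in
/-- The reduced part of the fixed classes, as a subgroup. -/
def redClasses [NeZero n] (c : ℕ) : AddSubgroup (Pic0 Qb F) where
  carrier := {x | IsRed T L n c x}
  zero_mem' := ⟨1, Kummer.one, by
      rw [delta, ordAt_eq (T.vord_one L true), ordAt_eq (T.vord_one L false)]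
      exact dvd_zero _,
    fun i => ⟨1, by rw [normRes_eq_residueAt (T.vord_one L i), T.residueAt_one, one_pow, one_pow]⟩⟩
  add_mem' := by
    rintro x y ⟨f, hf, hδ, hres⟩ ⟨g, hg, hδ', hres'⟩
    refine ⟨f * g, hf.mul hg, ?_, fun i => ?_⟩
    · rw [delta_mul hf.ne_zero hf.fixed hg.ne_zero hg.fixed]
      exact dvd_add hδ hδ'
    · obtain ⟨h, hh⟩ := hres i
      obtain ⟨h', hh'⟩ := hres' i
      exact ⟨h * h', by rw [normRes_mul' hf.ne_zero hf.fixed hg.ne_zero hg.fixed, mul_pow,
        mul_pow, hh, hh']⟩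
  neg_mem' := by
    rintro x ⟨f, hf, hδ, hres⟩
    refine ⟨f⁻¹, hf.inv, ?_, fun i => ?_⟩
    · rw [delta_inv hf.ne_zero hf.fixed]
      exact dvd_neg.2 hδ
    · obtain ⟨h, hh⟩ := hres i
      exact ⟨h⁻¹, by rw [normRes_inv' hf.ne_zero hf.fixed, inv_pow, inv_pow, hh]⟩

theorem mem_redClasses [NeZero n] : x ∈ redClasses T L n c ↔ IsRed T L n c x := Iff.rfl

end Red

end Fermat.Agent.BadPrime.Mazur.Local
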