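import Fermat.Agent.BadPrime.Mazur.Local.Kummer
import Fermat.Agent.TwoAdic.Torus.Frobenius

/-!
# On the reduced part Frobenius is `-q` times Atkin–Lehner

A class in the reduced part has, after multiplication by `c`, a Kummer function with residues
`(1, 1)` at the two components, on which `w ∘ φ` acts as the power `n q - q`.
-/

set_option autoImplicit false
set_option synthInstance.maxHeartbeats 400000
set_option linter.unusedSectionVars false
set_option linter.style.haveILetI false
set_option maxSynthPendingDepth 3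
set_option maxHeartbeats 1000000

noncomputable section

namespace Fermat.Agent.BadPrime.Mazur.Local

open AlgebraicCurve ModularCurve Fermat.Agent.Curve IsLocalRing Fermat.Agent.LevelP
  Fermat.Agent.LevelP.TwoCompData Fermat.Agent.Modular Fermat.Agent.Reduction
  Fermat.Agent.TwoAdic.Torus

local notation "Qb" => AlgebraicClosure ℚ
local notation "Γℚ" => (AlgebraicClosure ℚ ≃ₐ[ℚ] AlgebraicClosure ℚ)

local instance : Algebra.IsAlgebraic ℚ (AlgebraicClosure ℚ) := AlgebraicClosure.isAlgebraic ℚ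

variable {q M : ℕ} [Fact q.Prime] [NeZero M] {A : ValuationSubring Qb}
  [IsAlgClosed (ResidueField A)]

local notation "F" => modularFunctionFieldBar (M * q)
local notation "Fb" => modularFunctionFieldFullC (ResidueField A) M

theorem hasGaussRed_residueAt_false (TD : TwoCompData q A F Fb)
    (hred : ∀ (f : F) (g : Fb), (∃ h : f ∈ TD.V false, TD.red false ⟨f, h⟩ = g) ↔
      HasGaussRed (residue A) (f : LaurentSeries Qb) (g : LaurentSeries (ResidueField A)))
    {f : F} (hf : f ∈ TD.V false) :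
    HasGaussRed (residue A) (f : LaurentSeries Qb)
      ((TD.residueAt false f : Fb) : LaurentSeries (ResidueField A)) :=
  (hred f _).1 ⟨hf, (TD.residueAt_of_mem hf).symm⟩

theorem hasGaussRed_residueAt_true (TD : TwoCompData q A F Fb) {w : F →ₐ[Qb] F}
    (hswap : ∀ f, TD.swap f = w f)
    (hred : ∀ (f : F) (g : Fb), (∃ h : f ∈ TD.V false, TD.red false ⟨f, h⟩ = g) ↔
      HasGaussRed (residue A) (f : LaurentSeries Qb) (g : LaurentSeries (ResidueField A)))
    {f : F} (hf : f ∈ TD.V true) :
    HasGaussRed (residue A) ((w f : F) : LaurentSeries Qb)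
      ((TD.residueAt true f : Fb) : LaurentSeries (ResidueField A)) := by
  have h1 : TD.swap f ∈ TD.V false := (TD.swap_mem_iff f).2 hf
  have h2 := (hred (TD.swap f) _).1 ⟨h1, TD.red_swap ⟨f, hf⟩ h1⟩
  rw [hswap] at h2
  rw [TD.residueAt_of_mem hf]
  exact h2

theorem nsmul_eq_zero_of_isKummerFun {n : ℕ} {x : JZero (M * q)} {f : F} (h : IsKummerFun n x f) :
    n • x = 0 := by
  obtain ⟨hf, D, rfl, hD⟩ := h
  show Pic0.mk (n • D) = 0
  refine (pic0Mk_eq_zero_iff (n • D)).2 ⟨f, hf, fun v => ?_⟩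
  rw [AddSubgroupClass.coe_nsmul, Finsupp.smul_apply, nsmul_eq_mul, hD]

/-- The residues of a function of prescribed vertical slope lie in the field of a component. -/
theorem residue_mem_of_size {w : F →ₐ[Qb] F} [CharP (ResidueField A) q] (hA : A.LiesOverPrime q) (hqM : ¬ q ∣ M)
    (hw : IsALInvolution w) {u z : F} {e : Qb} (hwu : w u = algebraMap Qb F e * z)
    {r r' : LaurentSeries (ResidueField A)} (hr : r ≠ 0) (hr' : r' ≠ 0)
    (hu : HasGaussRed (residue A) (u : LaurentSeries Qb) r)
    (hz : HasGaussRed (residue A) (z : LaurentSeries Qb) r') : r ∈ Fb := by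
  rcases A.mem_or_inv_mem e with h | h
  · refine (residuesInLevel hA hqM hw u r (HahnSeries.C (residue A ⟨e, h⟩) * r') hu ?_).1
    rw [hwu, IntermediateField.coe_mul, coe_algebraMap_FL]
    exact (hasGaussRed_C ⟨e, h⟩).mul hz
  · have h' : r⁻¹ ∈ Fb := by
      refine (residuesInLevel hA hqM hw u⁻¹ r⁻¹ (HahnSeries.C (residue A ⟨e⁻¹, h⟩) * r'⁻¹) ?_ ?_).1
      · rw [IntermediateField.coe_inv]; exact hu.inv hr
      · rw [map_inv₀, hwu, mul_inv, ← map_inv₀, IntermediateField.coe_mul, coe_algebraMap_FL,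
          IntermediateField.coe_inv]
        exact (hasGaussRed_C (⟨e⁻¹, h⟩ : A)).mul (hz.inv hr')
    rw [← inv_inv r]
    exact inv_mem h'

/-- **The toric part.** On a reduced class `c • (φ x + q w x) = 0`. -/
theorem isRed_frobenius (TD : TwoCompData q A F Fb) {w : F →ₐ[Qb] F}
    (hswap : ∀ f, TD.swap f = w f)
    (hred : ∀ (f : F) (g : Fb), (∃ h : f ∈ TD.V false, TD.red false ⟨f, h⟩ = g) ↔
      HasGaussRed (residue A) (f : LaurentSeries Qb) (g : LaurentSeries (ResidueField A)))
    (hA : A.LiesOverPrime q) (hN : (q = 2 → 3 ∣ M) ∧ (q = 3 → 2 ∣ M)) (hqM : ¬ q ∣ M)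
    (hw : IsALInvolution w) (L : Level q A) {n c : ℕ} (hn : ¬ q ∣ n) {φ : Γℚ}
    (hφ : A.IsFrobeniusAt φ q) {x : JZero (M * q)} (hx : IsRed TD L n c x) :
    c • (φ • x + q • (SemilinearAut.ofAlgAut (alAlgEquiv hw) • x)) = 0 := by
  haveI := EC.charP_residueField A Fact.out hA
  haveI := Fermat.Agent.EichlerShimura.isFunctionField1_modularFunctionFieldBar (M * q)
  have hn0 : n ≠ 0 := fun h => hn (by rw [h]; exact dvd_zero q)
  obtain ⟨f, hf, ⟨d, hd⟩, hres⟩ := hx
  obtain ⟨h0, hh0⟩ := hres false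
  obtain ⟨h1, hh1⟩ := hres true
  set e0 := ordAt TD L false f
  set e1 := ordAt TD L true f
  have hv0 : TD.VOrd L.π false f e0 := vord_ordAt hf.ne_zero hf.fixed
  have hv1 : TD.VOrd L.π true f e1 := vord_ordAt hf.ne_zero hf.fixed
  have hr0 : HasGaussRed (residue A)
      ((algebraMap Qb F (L.π ^ (-e0)) * f : F) : LaurentSeries Qb)
      ((normRes TD L false f : Fb) : LaurentSeries (ResidueField A)) := by
    rw [normRes_eq hv0]
    exact hasGaussRed_residueAt_false TD hred
      (TD.mem_of_valuation_eq_one (vord_normalised hv0).valuation_eq_one)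
  have hr1 : HasGaussRed (residue A)
      ((algebraMap Qb F (L.π ^ (-e1)) * w f : F) : LaurentSeries Qb)
      ((normRes TD L true f : Fb) : LaurentSeries (ResidueField A)) := by
    have h := hasGaussRed_residueAt_true TD hswap hred
      (TD.mem_of_valuation_eq_one (vord_normalised hv1).valuation_eq_one)
    rw [map_mul, AlgHom.commutes, ← normRes_eq hv1] at h
    exact h
  -- a function of the prescribed vertical slope
  obtain ⟨u, z, r, r', hu, hr, hr', hur, hzr, hwu⟩ :=
    exists_res_size (π := residue A) (w := w) hw.alpha hw.beta residue_surjective hA hw.invol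
      (e := L.π ^ (-((c : ℤ) * d))) (zpow_ne_zero _ L.ne_zero)
  set g := algebraMap Qb F (L.π ^ (-e0)) ^ c * u ^ n * f ^ c with hg
  have hg0 : HasGaussRed (residue A) (g : LaurentSeries Qb)
      (r ^ n * ((normRes TD L false f : Fb) : LaurentSeries (ResidueField A)) ^ c) := by
    have h := (hur.pow n).mul (hr0.pow c)
    rw [← IntermediateField.coe_pow, ← IntermediateField.coe_pow, ← IntermediateField.coe_mul] at h
    rwa [show g = u ^ n * (algebraMap Qb F (L.π ^ (-e0)) * f) ^ c by rw [hg]; ring]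
  have hg1 : HasGaussRed (residue A) ((w g : F) : LaurentSeries Qb)
      (r' ^ n * ((normRes TD L true f : Fb) : LaurentSeries (ResidueField A)) ^ c) := by
    have hsc : (L.π ^ (-e0)) ^ c * (L.π ^ (-((c : ℤ) * d))) ^ n = (L.π ^ (-e1)) ^ c := by
      simp only [← zpow_natCast (G := Qb), ← zpow_mul, ← zpow_add₀ L.ne_zero]
      have : e1 - e0 = n * d := hd
      congr 1
      rw [show e1 = e0 + n * d by omega]
      ring
    have hwg : w g = z ^ n * (algebraMap Qb F (L.π ^ (-e1)) * w f) ^ c := by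
      rw [hg, map_mul, map_mul, map_pow, map_pow, map_pow, AlgHom.commutes, hwu]
      have := congrArg (algebraMap Qb F) hsc
      simp only [map_mul, map_pow] at this
      linear_combination (z ^ n * (w f) ^ c) * this
    have h := (hzr.pow n).mul (hr1.pow c)
    rw [← IntermediateField.coe_pow, ← IntermediateField.coe_pow, ← IntermediateField.coe_mul] at h
    rwa [hwg]
  have he0 : L.π ^ (-((c : ℤ) * d)) ≠ 0 := zpow_ne_zero _ L.ne_zero
  have hrmem : r ∈ Fb := residue_mem_of_size hA hqM hw hwu hr hr' hur hzr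
  have hr'mem : r' ∈ Fb := by
    refine residue_mem_of_size hA hqM hw (e := (L.π ^ (-((c : ℤ) * d)))⁻¹) ?_ hr' hr hzr hur
    have h := congrArg w hwu
    rw [hw.invol, map_mul, AlgHom.commutes] at h
    rw [h, ← mul_assoc, ← map_mul, inv_mul_cancel₀ he0, map_one, one_mul]
  have hlift : ∀ (s : LaurentSeries (ResidueField A)) (N : Fb) (h : Fb), s ∈ Fb → s ≠ 0 →
      N ≠ 0 → h ^ n = N ^ c →
      ∃ a : Fb, a ≠ 0 ∧ (a : LaurentSeries (ResidueField A)) ^ n *
        (s ^ n * (N : LaurentSeries (ResidueField A)) ^ c) = 1 := by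
    intro s N h hs hs0 hN hh
    set t : Fb := ⟨s, hs⟩ * h
    have ht : t ≠ 0 := by
      refine mul_ne_zero (fun h0 => hs0 (congrArg Subtype.val h0)) fun h0 => ?_
      rw [h0, zero_pow hn0] at hh
      exact pow_ne_zero c hN hh.symm
    refine ⟨t⁻¹, inv_ne_zero ht, ?_⟩
    have e : t ^ n = ⟨s, hs⟩ ^ n * N ^ c := by rw [mul_pow, hh]
    rw [← IntermediateField.coe_pow, inv_pow, IntermediateField.coe_inv,
      show s ^ n * (N : LaurentSeries (ResidueField A)) ^ c = ((t ^ n : Fb) : LaurentSeries _) by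
        rw [e]; simp]
    exact inv_mul_cancel₀ fun h0 => pow_ne_zero n ht (Subtype.ext h0)
  obtain ⟨a0, ha0, ha0'⟩ := hlift r _ h0 hrmem hr (normRes_ne_zero hv0) hh0
  obtain ⟨a1, ha1, ha1'⟩ := hlift r' _ h1 hr'mem hr' (normRes_ne_zero hv1) hh1
  obtain ⟨v, hv⟩ := exists_res (π := residue A) (w := w) hw.alpha hw.beta residue_surjective
    hw.invol a0 a1
  rw [gaussPair_res] at hv
  have hv0' : v ≠ 0 := fun h => ha0 (Subtype.ext (hv.1.unique (by rw [h]; exact hasGaussRed_zero)))
  -- the normalised Kummer function of `c • x`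
  set G := algebraMap Qb F ((L.π ^ (-e0)) ^ c) * (u * v) ^ n * f ^ c with hG
  have hGg : G = g * v ^ n := by rw [hG, hg, map_pow, mul_pow]; ring
  have hK : IsKummerFun n (c • x) G :=
    ((hf.pow c).isKummerFun).const_mul_pow (pow_ne_zero _ (zpow_ne_zero _ L.ne_zero))
      (mul_ne_zero hu hv0')
  have hres1 : (gaussPair (residue A) M q w).Res G 1 1 := by
    rw [gaussPair_res, OneMemClass.coe_one, hGg]
    refine ⟨?_, ?_⟩
    · have h := hg0.mul (hv.1.pow n)
      rw [mul_comm (r ^ n * _), ha0'] at h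
      rwa [IntermediateField.coe_mul, IntermediateField.coe_pow]
    · have h := hg1.mul (hv.2.pow n)
      rw [mul_comm (r' ^ n * _), ha1'] at h
      rwa [map_mul, map_pow, IntermediateField.coe_mul, IntermediateField.coe_pow]
  obtain ⟨-, D, hD, hDG⟩ := hK
  have hcore := PairResidue.smul_eq_nsmul (gaussPair (residue A) M q w) hn0
    (actsAsPower_swapFrob hA hN hqM hw hn hφ) hres1 hDG
  rw [hD, mul_smul] at hcore
  -- conclude
  set W := SemilinearAut.ofAlgAut (alAlgEquiv hw) with hW
  set y := c • x with hy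
  have hWW : ∀ z : JZero (M * q), W • W • z = z := fun z => by
    have e : alAlgEquiv hw * alAlgEquiv hw = 1 := AlgEquiv.ext fun v => hw.invol v
    rw [smul_smul, hW, ← map_mul, e, map_one, one_smul]
  have hny : n • y = 0 := by rw [hy, smul_comm, nsmul_eq_zero_of_isKummerFun hf.isKummerFun, smul_zero]
  have hm : (n * q - q) • y + q • y = 0 := by
    rw [← add_nsmul, Nat.sub_add_cancel (Nat.le_mul_of_pos_left q (Nat.pos_of_ne_zero hn0)),
      mul_nsmul, hny, smul_zero]
  have hWs : ∀ (k : ℕ) (z : JZero (M * q)), W • (k • z) = k • (W • z) := fun k z =>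
    map_nsmul (DistribSMul.toAddMonoidHom (JZero (M * q)) W) k z
  have hphi : φ • y = (n * q - q) • (W • y) := by
    rw [← hWs, ← hcore, hWW]
    rfl
  have hcomm : c • (φ • x) = φ • y :=
    (map_nsmul (DistribSMul.toAddMonoidHom (JZero (M * q)) φ) c x).symm
  rw [nsmul_add, hcomm, smul_comm c q, ← hWs c, ← hy, hphi, ← hWs, ← hWs, ← smul_add, hm,
    smul_zero]

end Fermat.Agent.BadPrime.Mazur.Local
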