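import Fermat.Agent.BadPrime.Mazur.Local.Classes
import Fermat.Agent.BadPrime.Mazur.Local.Instance
import Fermat.Agent.BadPrime.Mazur.Local.Toric
import Fermat.Agent.Galois.Frobenius
import Fermat.Agent.LevelP.X0.UnitCube

/-!
# The local inputs of Mazur's principle

`X₀(Mq)` at a prime `q ∤ M` (`2 ∣ M` if `q = 3`, `3 ∣ M` if `q = 2`) gives
`LocalInputsMod q n 12 M` for every `n` prime to `q`, and the factor `4` when `M` is even.
-/

set_option autoImplicit false
set_option synthInstance.maxHeartbeats 400000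
set_option maxHeartbeats 800000
set_option linter.unusedSectionVars false

noncomputable section

open HahnSeries ModularCurve AlgebraicCurve IsLocalRing

namespace Fermat.Agent.BadPrime.Mazur.Local

open Fermat.Agent.Curve Fermat.Agent.BadPrime Fermat.Agent.LevelP Fermat.Agent.LevelP.TwoCompData

local notation "Qb" => AlgebraicClosure ℚ
local notation "Γℚ" => (AlgebraicClosure ℚ ≃ₐ[ℚ] AlgebraicClosure ℚ)

local instance : Algebra.IsAlgebraic ℚ Qb := AlgebraicClosure.isAlgebraic ℚ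

variable {q M n c : ℕ} [Fact q.Prime] [NeZero M] [NeZero (M * q)] [NeZero n]

/-- The local inputs, given the thickness of the nodes. -/
theorem localInputsMod_of {m : ℕ} (hN : (q = 2 → 3 ∣ M) ∧ (q = 3 → 2 ∣ M)) (hqM : ¬ q ∣ M)
    (hn : ¬ q ∣ n) (hcm : c * m = 12)
    (hm : ∀ (A : ValuationSubring Qb), A.LiesOverPrime q → ∀ [IsAlgClosed (ResidueField A)]
      (T : TwoCompData q A (modularFunctionFieldBar (M * q))
        (modularFunctionFieldFullC (ResidueField A) M)), IsX0Data T →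
      (T.w : LaurentSeries Qb) = (X0.wSeries q Qb : LaurentSeries Qb) →
      (∀ y, T.On y false → T.IsNode y → 0 ≤ (T.loc y false).ord (X0.jResM A M)) →
      ∀ y, T.IsNode y → m ∣ T.r y) :
    LocalInputsMod q n c M := by
  obtain ⟨A₀, hA₀⟩ := Galois.exists_valuationSubring_liesOverPrime (L := Qb) (Fact.out : q.Prime)
  have hcl₀ : IsAlgClosed (ResidueField A₀) := EC.isAlgClosed_residueField A₀
  obtain ⟨T₀, hT₀, -, -⟩ := exists_isX0Data hN hqM hA₀
  refine ⟨swapJ q M, swapJ_swapJ hqM, hT₀.smul_swapJ, heckeOperatorBar_swapJ hqM,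
    fun K _ _ hI A hA φ hφ => ?_⟩
  have : IsAlgClosed (ResidueField A) := EC.isAlgClosed_residueField A
  have : IsFunctionField1 Qb (modularFunctionFieldBar (M * q)) :=
    X0.isFunctionField1_mul_prime q M
  have : IsFunctionField1 (ResidueField A) (modularFunctionFieldFullC (ResidueField A) M) :=
    X0.isFunctionField1_fullC_X0 A M
  obtain ⟨T, hT, hw, hj⟩ := exists_isX0Data hN hqM hA
  set L := unramifiedLevel (Fact.out : q.Prime) hT.liesOver
  have hD : HasResDiv T L n c := hasResDiv_of_e_eq_one T L n c (Fact.out : q.Prime) (NeZero.ne n)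
    hT.swap_swap rfl hcm (hm A hA T hT hw hj)
  have hle : fixedTorsion (M * q) n K ≤ fixedClasses T L n :=
    hT.fixedTorsion_le fun τ hτ => hI A hA τ hτ
  refine ⟨(slopeHom T L n).comp (AddSubgroup.inclusion hle), redClasses T L n c,
    fun ℓ hℓ x y hy => hT.slopeHom_hecke ℓ hℓ ⟨x, hle x.2⟩ ⟨y, hle y.2⟩ hy,
    fun t ht x hx => hT.evalJ_mem_redClasses hN hD hφ ht ⟨x, hle x.2⟩ hx,
    fun x _ hx => ?_⟩
  have h := isRed_frobenius T (w := (X0.swap q M : modularFunctionFieldBar (M * q) →ₐ[Qb] _))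
    (fun f => by rw [hT.swap_eq]; rfl) hT.red_iff hA hN hqM (isALInvolution_swap hqM) L hn hφ hx
  have e : Fermat.Agent.TwoAdic.Torus.alAlgEquiv (isALInvolution_swap (M := M) hqM) =
      X0.swap q M := AlgEquiv.ext fun _ => rfl
  rw [e] at h
  exact h

/-- **The local inputs of Mazur's principle.** -/
theorem localInputsMod (hN : (q = 2 → 3 ∣ M) ∧ (q = 3 → 2 ∣ M)) (hqM : ¬ q ∣ M) (hn : ¬ q ∣ n) :
    LocalInputsMod q n 12 M :=
  localInputsMod_of (m := 1) hN hqM hn rfl fun _ _ _ _ _ _ _ _ _ => one_dvd _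

/-- At an even level the bounded factor is prime to `3`. -/
theorem localInputsMod_four (hq : 5 ≤ q) (hqM : ¬ q ∣ M) (h2 : 2 ∣ M) (hn : ¬ q ∣ n) :
    LocalInputsMod q n 4 M :=
  localInputsMod_of (m := 3) ⟨fun h => absurd h (by omega), fun h => absurd h (by omega)⟩ hqM hn
    rfl fun _ hA _ T hT hw hj y hy => X0.three_dvd_r _ q M hq hA h2 T hT.red_iff hw hj y hy

omit [NeZero n] in
/-- The inputs of Mazur's principle for a prime `p ≥ 5`. -/
theorem localInputs {p : ℕ} (hp : p.Prime) (hp5 : 5 ≤ p) (hpq : p ≠ q)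
    (hN : (q = 2 → 3 ∣ M) ∧ (q = 3 → 2 ∣ M)) (hqM : ¬ q ∣ M) : LocalInputs q p M :=
  have : NeZero p := ⟨hp.ne_zero⟩
  LocalInputsMod.localInputs
    ((Nat.Coprime.symm ((Nat.Prime.coprime_iff_not_dvd hp).2 fun h => by
      rcases (Nat.Prime.dvd_mul hp).1 (show p ∣ 2 ^ 2 * 3 from h) with h | h
      · have := Nat.le_of_dvd two_pos (hp.dvd_of_dvd_pow h)
        omega
      · have := Nat.le_of_dvd three_pos h
        omega)))
    (localInputsMod hN hqM fun h =>
      hpq ((Nat.prime_dvd_prime_iff_eq Fact.out hp).1 h).symm)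

end Fermat.Agent.BadPrime.Mazur.Local
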