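import Fermat.Agent.BadPrime.Mazur.Local.NormSeries
import Fermat.Agent.Reduction.ModularData
import Fermat.Agent.Curve.Fibre

/-!
# Orders of a residual norm

In a function field containing the conjugates in `q ^ (1 / l)` the order of the residual norm at a
place is a non-negative combination of the orders of the function at finitely many places.
-/

set_option autoImplicit false
set_option synthInstance.maxHeartbeats 400000
set_option maxHeartbeats 800000
set_option linter.unusedSectionVars false

noncomputable section

open HahnSeries ModularCurve AlgebraicCurve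
open scoped IntermediateField

namespace Fermat.Agent.BadPrime.Mazur.Local

open Fermat.Agent.Curve Fermat.Agent.Reduction

variable {k : Type*} [Field k]

/-- The substitution `q ↦ c q`, over the constants. -/
def twistAlg (c : kˣ) : LaurentSeries k →ₐ[k] LaurentSeries k where
  toRingHom := Igusa.twist c
  commutes' a := by
    show Igusa.twist c (algebraMap k (LaurentSeries k) a) = _
    rw [algebraMap_laurentSeries_eq_single]
    ext i
    rw [Igusa.twist_coeff]
    rcases eq_or_ne i 0 with rfl | hi
    · simp
    · simp [HahnSeries.coeff_single_of_ne hi]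

theorem twistAlg_apply (c : kˣ) (x : LaurentSeries k) : twistAlg c x = Igusa.twist c x := rfl

/-- Elements of a function field are integral over the field of a transcendental element. -/
theorem isIntegral_of_mem (E : IntermediateField k (LaurentSeries k)) [IsFunctionField1 k E]
    {t x : LaurentSeries k} (ht : t ∈ E) (htr : Transcendental k t) (hx : x ∈ E) :
    IsIntegral k⟮t⟯ x := by
  have htE : Transcendental k (⟨t, ht⟩ : E) := fun h => htr (h.algHom E.val)
  have : FiniteDimensional k⟮(⟨t, ht⟩ : E)⟯ E := finiteDimensional_adjoin htE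
  obtain ⟨P, hP, hPx⟩ := IsIntegral.of_finite k⟮(⟨t, ht⟩ : E)⟯ (⟨x, hx⟩ : E)
  refine ⟨P.map (adjoinEmb (⟨t, ht⟩ : E)), hP.map _, ?_⟩
  rw [← Polynomial.aeval_def] at hPx ⊢
  refine (coe_aeval_map_adjoinEmb (⟨t, ht⟩ : E) ⟨x, hx⟩ P).symm.trans ?_
  rw [hPx]
  rfl

/-- An automorphism of the series fixing `t` preserves integrality over `k⟮t⟯`. -/
theorem isIntegral_map (ψ : LaurentSeries k →ₐ[k] LaurentSeries k) {t x : LaurentSeries k}
    (ht : ψ t = t) (hx : IsIntegral k⟮t⟯ x) : IsIntegral k⟮t⟯ (ψ x) := by
  have hfix : ∀ z ∈ k⟮t⟯, ψ z = z := by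
    intro z hz
    induction hz using IntermediateField.adjoin_induction with
    | mem y hy => rw [Set.mem_singleton_iff.1 hy, ht]
    | algebraMap c => exact ψ.commutes c
    | add a b _ _ ha hb => rw [map_add, ha, hb]
    | inv a _ ha => rw [map_inv₀, ha]
    | mul a b _ _ ha hb => rw [map_mul, ha, hb]
  let ψ' : LaurentSeries k →ₐ[k⟮t⟯] LaurentSeries k :=
    { toRingHom := ψ.toRingHom
      commutes' := fun z => hfix _ z.2 }
  exact hx.map ψ'

section Field

variable (M l : ℕ) [NeZero M] [NeZero l] (ζb : kˣ)

/-- The maps sending a residue to its conjugates and to itself, in `q ^ (1 / l)`. -/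
def conjMap : Option (Option (Fin l)) → (LaurentSeries k →ₐ[k] LaurentSeries k)
  | none => qExpandAlgHomC k l
  | some none => (qExpandAlgHomC k l).comp (qExpandAlgHomC k l)
  | some (some b) => twistAlg (ζb ^ (b : ℕ))

/-- The images of the generators. -/
def conjGens : Set (LaurentSeries k) :=
  ⋃ o, conjMap l ζb o '' divisorExpansionsC k M

theorem finite_divisorExpansionsC : (divisorExpansionsC k M).Finite := by
  refine Set.Finite.subset (Set.finite_range fun d : {d : ℕ // d ∈ M.divisors} =>
    haveI : NeZero (d : ℕ) := ⟨(Nat.pos_of_mem_divisors d.2).ne'⟩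
    qExpand k d (jqModC k)) ?_
  rintro x ⟨d, hne, hd, rfl⟩
  exact ⟨⟨d, Nat.mem_divisors.2 ⟨hd, NeZero.ne M⟩⟩, rfl⟩

/-- `j (q ^ l)`. -/
def jExp : LaurentSeries k := qExpand k l (jqModC k)

theorem transcendental_jExp : Transcendental k (jExp (k := k) l) := fun h =>
  Reduction.transcendental_jqModC k ((isAlgebraic_algHom_iff (qExpandAlgHomC k l) (qExpand_injective l)).1 h)

variable {l ζb} in
theorem twist_jExp (hζ : ζb ^ l = 1) (b : Fin l) :
    twistAlg (ζb ^ (b : ℕ)) (jExp (k := k) l) = jExp l := by
  have h1 : (ζb ^ (b : ℕ)) ^ l = 1 := by rw [← pow_mul, mul_comm, pow_mul, hζ, one_pow]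
  rw [twistAlg_apply, jExp]
  ext i
  rw [Igusa.twist_coeff]
  by_cases hi : (l : ℤ) ∣ i
  · obtain ⟨m, rfl⟩ := hi
    rw [zpow_mul, zpow_natCast, h1, one_zpow, Units.val_one, one_mul]
  · rw [qExpand_coeff_of_not_dvd _ _ hi, mul_zero]

theorem qExpand_mem_fullC_mul (N : ℕ) [NeZero N] {y : LaurentSeries k}
    (hy : y ∈ modularFunctionFieldFullC k N) :
    qExpandAlgHomC k l y ∈ modularFunctionFieldFullC k (N * l) :=
  full_degeneracyC_map_le k N l ((IntermediateField.mem_map _).2 ⟨y, hy, rfl⟩)

theorem isIntegral_jExp_of_mem (N : ℕ) [NeZero N] (hlN : l ∣ N) {x : LaurentSeries k}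
    (hx : x ∈ modularFunctionFieldFullC k N) : IsIntegral k⟮jExp (k := k) l⟯ x :=
  isIntegral_of_mem (modularFunctionFieldFullC k N) (jqModCd_mem_full k N hlN)
    (transcendental_jExp l) hx

variable {M l ζb} in
theorem isIntegral_conjGens (hζ : ζb ^ l = 1) {x : LaurentSeries k}
    (hx : x ∈ conjGens M l ζb) : IsIntegral k⟮jExp (k := k) l⟯ x := by
  obtain ⟨o, hx⟩ := Set.mem_iUnion.1 hx
  obtain ⟨y, hy, rfl⟩ := hx
  have hyM : y ∈ modularFunctionFieldFullC k M := IntermediateField.subset_adjoin k _ hy
  rcases o with _ | _ | b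
  · exact isIntegral_jExp_of_mem l (M * l) (dvd_mul_left l M) (qExpand_mem_fullC_mul l M hyM)
  · have h1 := qExpand_mem_fullC_mul l M hyM
    exact isIntegral_jExp_of_mem l (M * l * l) (dvd_mul_left l _)
      (qExpand_mem_fullC_mul l (M * l) h1)
  · exact isIntegral_map (twistAlg (ζb ^ (b : ℕ))) (twist_jExp hζ b)
      (isIntegral_jExp_of_mem l (M * l) (dvd_mul_left l M)
        (full_degeneracyC_le k (dvd_mul_right M l) hyM))

/-- The field generated by the conjugates over `k(j(q ^ l))`. -/
def conjField : IntermediateField k (LaurentSeries k) :=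
  (IntermediateField.adjoin k⟮jExp (k := k) l⟯ (conjGens M l ζb)).restrictScalars k

theorem map_le_conjField (o : Option (Option (Fin l))) :
    (modularFunctionFieldFullC k M).map (conjMap l ζb o) ≤ conjField M l ζb := by
  rw [modularFunctionFieldFullC, IntermediateField.adjoin_map, IntermediateField.adjoin_le_iff]
  intro x hx
  rw [SetLike.mem_coe, conjField, IntermediateField.mem_restrictScalars]
  exact IntermediateField.subset_adjoin k⟮jExp (k := k) l⟯ (conjGens M l ζb)
    (Set.mem_iUnion.2 ⟨o, hx⟩)

variable {M l ζb} in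
theorem isFunctionField1_conjField (hζ : ζb ^ l = 1) :
    IsFunctionField1 k (conjField (k := k) M l ζb) := by
  set t := jExp (k := k) l with ht
  have htmem : t ∈ conjField M l ζb :=
    (IntermediateField.adjoin k⟮t⟯ (conjGens M l ζb)).algebraMap_mem
      ⟨t, IntermediateField.mem_adjoin_simple_self k t⟩
  refine IsFunctionField1.of_finite_adjoin (x := (⟨t, htmem⟩ : conjField M l ζb))
    (fun h => transcendental_jExp l (h.algHom (conjField M l ζb).val)) ?_
  have hfin : (conjGens M l ζb).Finite :=
    Set.finite_iUnion fun o => (finite_divisorExpansionsC M).image _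
  have := hfin.to_subtype
  have : FiniteDimensional k⟮t⟯ (IntermediateField.adjoin k⟮t⟯ (conjGens M l ζb)) :=
    IntermediateField.finiteDimensional_adjoin fun x hx => isIntegral_conjGens hζ hx
  exact Module.Finite.of_equiv_equiv
    (A₁ := k⟮t⟯) (B₁ := IntermediateField.adjoin k⟮t⟯ (conjGens M l ζb))
    (RingEquiv.ofBijective _ (adjoinEmb_bijective (⟨t, htmem⟩ : conjField M l ζb))).symm
    ({ toFun := fun x => ⟨x.1, x.2⟩
       invFun := fun x => ⟨x.1, x.2⟩
       left_inv := fun _ => rfl
       right_inv := fun _ => rfl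
       map_mul' := fun _ _ => rfl
       map_add' := fun _ _ => rfl } :
        IntermediateField.adjoin k⟮t⟯ (conjGens M l ζb) ≃+* conjField M l ζb)
    (RingHom.ext fun a => Subtype.ext (by
      obtain ⟨b, rfl⟩ :=
        (RingEquiv.ofBijective _ (adjoinEmb_bijective (⟨t, htmem⟩ : conjField M l ζb))).surjective a
      simp only [RingHom.coe_comp, RingEquiv.coe_toRingHom, Function.comp_apply,
        RingEquiv.symm_apply_apply]
      rfl))

/-- A conjugation, into the field of the conjugates. -/
def conjHom (o : Option (Option (Fin l))) :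
    modularFunctionFieldFullC k M →ₐ[k] conjField M l ζb :=
  ((conjMap l ζb o).comp (modularFunctionFieldFullC k M).val).codRestrict
    (conjField M l ζb).toSubalgebra fun x =>
      map_le_conjField M l ζb o ⟨x, x.2, rfl⟩

end Field

/-- **The order formula.** -/
theorem exists_ord_formula [IsAlgClosed k] (M : ℕ) [NeZero M] (l : ℕ) [NeZero l] {ζb : kˣ}
    (hζ : ζb ^ l = 1) (R : Place k (modularFunctionFieldFullC k M)) :
    ∃ (e : ℕ) (c : Option (Fin l) → ℕ)
      (Q : Option (Fin l) → Place k (modularFunctionFieldFullC k M)), 0 < e ∧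
      ∀ g g' : modularFunctionFieldFullC k M, g ≠ 0 →
        IsResNorm l ζb (g : LaurentSeries k) (g' : LaurentSeries k) →
        (e : ℤ) * R.ord g' = ∑ o, (c o : ℤ) * (Q o).ord g := by
  classical
  have := isFunctionField1_conjField (M := M) hζ
  let φ := conjHom (k := k) M l ζb
  obtain ⟨W, hW⟩ : ∃ W, Place.restrictAlong (φ none) (isIntegralAlong _) W = R := by
    let := algebraAlong (φ none)
    have := isScalarTower_along (φ none)
    have : FiniteDimensional (modularFunctionFieldFullC k M) (conjField M l ζb) :=
      finiteAlong (φ none)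
    obtain ⟨W, hW⟩ := fiber_nonempty (F' := conjField M l ζb) R
    exact ⟨W, Place.mem_fiber.1 hW⟩
  refine ⟨Place.ramificationIndexAlong (φ none) W,
    fun o => Place.ramificationIndexAlong (φ (some o)) W,
    fun o => Place.restrictAlong (φ (some o)) (isIntegralAlong _) W, ?_, fun g g' hg h => ?_⟩
  · let := algebraAlong (φ none)
    have := isScalarTower_along (φ none)
    have := isIntegral_along (φ none) (isIntegralAlong _)
    exact W.ramificationIndex_pos
  have hprod : φ none g' = ∏ o : Option (Fin l), φ (some o) g := by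
    refine Subtype.ext ?_
    rw [← IntermediateField.coe_val, map_prod, Fintype.prod_option]
    exact h
  have hne : ∀ o, φ (some o) g ≠ 0 := fun o =>
    (map_ne_zero_iff _ (φ (some o)).toRingHom.injective).2 hg
  have hord : W.ord (∏ o : Option (Fin l), φ (some o) g) =
      ∑ o : Option (Fin l), W.ord (φ (some o) g) := by
    generalize (Finset.univ : Finset (Option (Fin l))) = s
    induction s using Finset.induction_on with
    | empty => simp
    | insert i s hi ih =>
      rw [Finset.prod_insert hi, Finset.sum_insert hi,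
        W.ord_mul (hne i) (Finset.prod_ne_zero_iff.2 fun j _ => hne j), ih]
  calc (Place.ramificationIndexAlong (φ none) W : ℤ) * R.ord g'
      = W.ord (φ none g') := by rw [Place.ord_restrictAlong _ (isIntegralAlong _), hW]
    _ = ∑ o : Option (Fin l), W.ord (φ (some o) g) := by rw [hprod, hord]
    _ = _ := Finset.sum_congr rfl fun o _ => Place.ord_restrictAlong _ (isIntegralAlong _) W g

end Fermat.Agent.BadPrime.Mazur.Local
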