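import Fermat.Agent.Reduction.NormCongruence
import Fermat.Agent.Reduction.HeckeDegree
import Fermat.Agent.BadPrime.GaussTwoBasic
import Fermat.Agent.BadPrime.GaussField

/-!
# The residue of the norm along the degeneracy map, on `q`-expansions

In `q ^ (1 / l)` the norm of `β f` is `f (q ^ l ^ 2) * ∏ f (ζ ^ b q)`.  The same product of the
residue of `f` is therefore the residue of the norm, at every level prime to `l`.
-/

set_option autoImplicit false
set_option synthInstance.maxHeartbeats 400000
set_option linter.unusedSectionVars false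

noncomputable section

open HahnSeries ModularCurve AlgebraicCurve

namespace Fermat.Agent.BadPrime.Mazur.Local

open Fermat.Agent.BadPrime Fermat.Agent.Reduction

section Twist

variable {R S : Type*} [CommRing R] [CommRing S]

/-- The product of the conjugates in `q ^ (1 / l)`. -/
def normProd (l : ℕ) [NeZero l] (ζ : Rˣ) : LaurentSeries R →* LaurentSeries R where
  toFun x := qExpand R l (qExpand R l x) * ∏ b : Fin l, Igusa.twist (ζ ^ (b : ℕ)) x
  map_one' := by simp
  map_mul' x y := by
    simp only [map_mul, Finset.prod_mul_distrib]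
    ring

theorem normProd_apply (l : ℕ) [NeZero l] (ζ : Rˣ) (x : LaurentSeries R) :
    normProd l ζ x = qExpand R l (qExpand R l x) * ∏ b : Fin l, Igusa.twist (ζ ^ (b : ℕ)) x := rfl

theorem twist_injective (c : Rˣ) : Function.Injective (Igusa.twist c) := by
  intro x y h
  ext k
  have := congrArg (fun z : LaurentSeries R => z.coeff k) h
  simpa [Igusa.twist_coeff] using this

theorem normProd_ne_zero [IsDomain R] (l : ℕ) [NeZero l] (ζ : Rˣ) {x : LaurentSeries R}
    (hx : x ≠ 0) : normProd l ζ x ≠ 0 := by
  rw [normProd_apply]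
  refine mul_ne_zero ((map_ne_zero_iff _ (qExpand_injective l)).2
    ((map_ne_zero_iff _ (qExpand_injective l)).2 hx)) (Finset.prod_ne_zero_iff.2 fun b _ => ?_)
  exact (map_ne_zero_iff _ (twist_injective _)).2 hx

variable (l : ℕ) [NeZero l] (ζb : Rˣ)

/-- `g'` is the norm of `β g`, read on expansions. -/
def IsResNorm (g g' : LaurentSeries R) : Prop := qExpand R l g' = normProd l ζb g

variable {l ζb}

theorem IsResNorm.unique {g g₁ g₂ : LaurentSeries R} (h₁ : IsResNorm l ζb g g₁)
    (h₂ : IsResNorm l ζb g g₂) : g₁ = g₂ :=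
  qExpand_injective l (h₁.trans h₂.symm)

theorem IsResNorm.ne_zero [IsDomain R] {g g' : LaurentSeries R} (h : IsResNorm l ζb g g')
    (hg : g ≠ 0) : g' ≠ 0 := by
  rintro rfl
  rw [IsResNorm, map_zero] at h
  exact normProd_ne_zero l ζb hg h.symm

end Twist

section Gauss

variable {L k : Type*} [Field L] [Field k] {A : ValuationSubring L} {π : A →+* k}

theorem hasGaussRed_twist (u : Aˣ) {f : LaurentSeries L} {g : LaurentSeries k}
    (h : HasGaussRed π f g) :
    HasGaussRed π (Igusa.twist (Units.map A.subtype.toMonoidHom u) f)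
      (Igusa.twist (Units.map π.toMonoidHom u) g) := by
  obtain ⟨a, b, hb, e₁, e₂⟩ := h
  refine ⟨Igusa.twist u a, Igusa.twist u b, ?_, ?_, ?_⟩
  · rw [Igusa.coeffMap_twist]
    exact (map_ne_zero_iff _ (twist_injective _)).2 hb
  · rw [Igusa.coeffMap_twist, Igusa.coeffMap_twist, ← map_mul, e₁]
  · rw [Igusa.coeffMap_twist, Igusa.coeffMap_twist, ← map_mul, e₂]

theorem hasGaussRed_prod {ι : Type*} (s : Finset ι) {f : ι → LaurentSeries L}
    {g : ι → LaurentSeries k} (h : ∀ i ∈ s, HasGaussRed π (f i) (g i)) :
    HasGaussRed π (∏ i ∈ s, f i) (∏ i ∈ s, g i) := by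
  classical
  induction s using Finset.induction_on with
  | empty => simpa using hasGaussRed_one
  | insert i s hi ih =>
    rw [Finset.prod_insert hi, Finset.prod_insert hi]
    exact (h i (Finset.mem_insert_self i s)).mul
      (ih fun j hj => h j (Finset.mem_insert_of_mem hj))

theorem hasGaussRed_normProd (l : ℕ) [NeZero l] (u : Aˣ) {f : LaurentSeries L}
    {g : LaurentSeries k} (h : HasGaussRed π f g) :
    HasGaussRed π (normProd l (Units.map A.subtype.toMonoidHom u) f)
      (normProd l (Units.map π.toMonoidHom u) g) := by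
  rw [normProd_apply, normProd_apply]
  refine ((h.qExpand l).qExpand l).mul (hasGaussRed_prod _ fun b _ => ?_)
  rw [← map_pow, ← map_pow]
  exact hasGaussRed_twist _ h

end Gauss

section Norm

variable {L : Type*} [Field L] [Algebra ℚ L] (N l : ℕ) [NeZero N] [NeZero l]

/-- The norm along `α` of `β x`. -/
def heckeNorm (x : laurentBaseChange L (modularFunctionFieldFull N)) :
    laurentBaseChange L (modularFunctionFieldFull N) :=
  letI := algebraAlong (heckeAlphaBar L N l)
  Algebra.norm (laurentBaseChange L (modularFunctionFieldFull N)) (heckeBetaBar L N l x)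

theorem heckeNorm_mul (x y : laurentBaseChange L (modularFunctionFieldFull N)) :
    heckeNorm N l (x * y) = heckeNorm N l x * heckeNorm N l y := by
  simp only [heckeNorm, map_mul]

theorem heckeNorm_ne_zero (hfin : FiniteAlong L (heckeAlphaBar L N l))
    {x : laurentBaseChange L (modularFunctionFieldFull N)} (hx : x ≠ 0) :
    heckeNorm N l x ≠ 0 := by
  let := algebraAlong (heckeAlphaBar L N l)
  have : Module.Finite (laurentBaseChange L (modularFunctionFieldFull N))
    (laurentBaseChange L (modularFunctionFieldFull (N * l))) := hfin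
  exact Algebra.norm_ne_zero_iff.2
    ((map_ne_zero_iff _ (heckeBetaBar L N l).toRingHom.injective).2 hx)

variable {k : Type*} [Field k] {A : ValuationSubring L} {π : A →+* k} [IsLocalHom π]

variable {N l} in
/-- **The residue of a norm.** -/
theorem exists_hasGaussRed_heckeNorm [Algebra.IsAlgebraic ℚ L] (hl : l.Prime) (hlN : ¬ l ∣ N) (ι : L →+* ℂ) (u : Aˣ)
    (hu : IsPrimitiveRoot (Units.map A.subtype.toMonoidHom u) l)
    {f : laurentBaseChange L (modularFunctionFieldFull N)} {g : LaurentSeries k}
    (h : HasGaussRed π (f : LaurentSeries L) g) (hg : g ≠ 0) :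
    ∃ g', HasGaussRed π ((heckeNorm N l f :
        laurentBaseChange L (modularFunctionFieldFull N)) : LaurentSeries L) g' ∧
      IsResNorm l (Units.map π.toMonoidHom u) g g' := by
  have hdeg := finrankAlong_heckeAlphaBar_of_embedding ι N l hl hlN
  have hP : HasGaussRed π (qExpand L l ((heckeNorm N l f :
      laurentBaseChange L (modularFunctionFieldFull N)) : LaurentSeries L))
      (normProd l (Units.map π.toMonoidHom u) g) := by
    rw [show qExpand L l ((heckeNorm N l f :
      laurentBaseChange L (modularFunctionFieldFull N)) : LaurentSeries L) =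
        normProd l (Units.map A.subtype.toMonoidHom u) (f : LaurentSeries L) from
      qExpand_norm_heckeBetaBar hl hlN ι hu hdeg f]
    exact hasGaussRed_normProd l u h
  have hne := normProd_ne_zero l (Units.map π.toMonoidHom u) hg
  set Nf := heckeNorm N l f
  rcases (gaussRing π (laurentBaseChange L (modularFunctionFieldFull N))
      (exists_scalable_quotient A π N)).mem_or_inv_mem Nf with ⟨g', hg'⟩ | ⟨g', hg'⟩
  · exact ⟨g', hg', (hg'.qExpand l).unique hP⟩
  · rw [IntermediateField.coe_inv] at hg'
    have hN0 : (Nf : LaurentSeries L) ≠ 0 := by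
      intro h0
      rw [h0, map_zero] at hP
      exact hne (hP.unique hasGaussRed_zero)
    have h1 := (hg'.qExpand l).mul hP
    rw [← map_mul, inv_mul_cancel₀ hN0, map_one] at h1
    have h2 : qExpand k l g' * normProd l (Units.map π.toMonoidHom u) g = 1 :=
      h1.unique hasGaussRed_one
    have hg'0 : g' ≠ 0 := by
      rintro rfl
      simp at h2
    refine ⟨g'⁻¹, by simpa using hg'.inv hg'0, ?_⟩
    rw [IsResNorm, map_inv₀]
    exact inv_eq_of_mul_eq_one_right h2

end Norm

end Fermat.Agent.BadPrime.Mazur.Local
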