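import Fermat.Agent.LevelP.Model.Slope
import Fermat.Agent.BadPrime.JacobianKummer

/-!
# Orders and normalised residues of fixed functions along the two components

For a function fixed by the Galois group of the constants, `ordAt i` is its order along the
component `i` and `normRes i` the residue of the function divided by that power of the uniformiser.
-/

set_option autoImplicit false
set_option linter.unusedSectionVars false

noncomputable section

namespace Fermat.Agent.BadPrime.Mazur.Local

open AlgebraicCurve Fermat.Agent.Curve IsLocalRing Fermat.Agent.LevelP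
  Fermat.Agent.LevelP.TwoCompData

local notation "Qb" => AlgebraicClosure ℚ
local notation "Γℚ" => (AlgebraicClosure ℚ ≃ₐ[ℚ] AlgebraicClosure ℚ)

variable {q : ℕ} {A : ValuationSubring Qb} {F : Type*} [Field F] [Algebra Qb F]
  {Fb : Type*} [Field Fb] [Algebra (ResidueField A) Fb]
  (T : TwoCompData q A F Fb) (L : Level q A)

/-- The order along the component `i`, counted in the uniformiser of `L`. -/
def ordAt (i : Bool) (f : F) : ℤ :=
  letI := Classical.propDecidable
  if h : ∃ a, T.VOrd L.π i f a then h.choose else 0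

/-- The residue along `i` of the function divided by its power of the uniformiser. -/
def normRes (i : Bool) (f : F) : Fb :=
  T.residueAt i (algebraMap Qb F (L.π ^ (-ordAt T L i f)) * f)

/-- The difference of the orders along the two components. -/
def delta (f : F) : ℤ := ordAt T L true f - ordAt T L false f

variable {T L} {i : Bool} {f g : F} {a b : ℤ}

theorem ordAt_eq (h : T.VOrd L.π i f a) : ordAt T L i f = a := by
  classical
  have hex : ∃ a, T.VOrd L.π i f a := ⟨a, h⟩
  rw [ordAt, dif_pos hex]
  exact T.vord_unique L hex.choose_spec h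

theorem vord_ordAt (hf : f ≠ 0) (hfix : T.Fixed L.H f) : T.VOrd L.π i f (ordAt T L i f) := by
  obtain ⟨a, ha⟩ := T.exists_vord L i hf hfix
  rwa [ordAt_eq ha]

theorem vord_normalised (h : T.VOrd L.π i f a) :
    T.VOrd L.π i (algebraMap Qb F (L.π ^ (-a)) * f) 0 := by
  have := (T.vord_algebraMap (π := L.π) (i := i) (map_zpow₀ A.valuation L.π (-a))).mul h L.ne_zero
  rwa [neg_add_cancel] at this

theorem normRes_eq (h : T.VOrd L.π i f a) :
    normRes T L i f = T.residueAt i (algebraMap Qb F (L.π ^ (-a)) * f) := by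
  rw [normRes, ordAt_eq h]

theorem normRes_eq_residueAt (h : T.VOrd L.π i f 0) : normRes T L i f = T.residueAt i f := by
  rw [normRes_eq h, neg_zero, zpow_zero, map_one, one_mul]

theorem normRes_ne_zero (h : T.VOrd L.π i f a) : normRes T L i f ≠ 0 := by
  rw [normRes_eq h]
  exact residueAt_ne_zero (vord_normalised h).valuation_eq_one

theorem ordAt_mul (hf : T.VOrd L.π i f a) (hg : T.VOrd L.π i g b) :
    ordAt T L i (f * g) = ordAt T L i f + ordAt T L i g := by
  rw [ordAt_eq (hf.mul hg L.ne_zero), ordAt_eq hf, ordAt_eq hg]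

theorem normRes_mul (hf : T.VOrd L.π i f a) (hg : T.VOrd L.π i g b) :
    normRes T L i (f * g) = normRes T L i f * normRes T L i g := by
  rw [normRes_eq (hf.mul hg L.ne_zero), normRes_eq hf, normRes_eq hg,
    ← residueAt_mul (T.mem_of_valuation_eq_one (vord_normalised hf).valuation_eq_one)
      (T.mem_of_valuation_eq_one (vord_normalised hg).valuation_eq_one)]
  congr 1
  rw [neg_add, zpow_add₀ L.ne_zero, map_mul]
  ring

theorem normRes_inv (hf : T.VOrd L.π i f a) : normRes T L i f⁻¹ = (normRes T L i f)⁻¹ := by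
  rw [normRes_eq hf.inv, normRes_eq hf, ← residueAt_inv (vord_normalised hf).valuation_eq_one,
    mul_inv, ← map_inv₀, ← zpow_neg]

theorem normRes_pow (hf : T.VOrd L.π i f a) (m : ℕ) :
    normRes T L i (f ^ m) = normRes T L i f ^ m := by
  rw [normRes_eq (hf.pow m), normRes_eq hf,
    ← residueAt_pow (T.mem_of_valuation_eq_one (vord_normalised hf).valuation_eq_one), mul_pow,
    ← map_pow, ← zpow_natCast (L.π ^ (-a)) m, ← zpow_mul, neg_mul, mul_comm a]

theorem ordAt_pow (hf : T.VOrd L.π i f a) (m : ℕ) :
    ordAt T L i (f ^ m) = m * ordAt T L i f := by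
  rw [ordAt_eq (hf.pow m), ordAt_eq hf]

section Fixed

variable (hf : f ≠ 0) (hff : T.Fixed L.H f) (hg : g ≠ 0) (hgf : T.Fixed L.H g)

include hf hff hg hgf in
theorem delta_mul : delta T L (f * g) = delta T L f + delta T L g := by
  simp only [delta, ordAt_mul (vord_ordAt hf hff) (vord_ordAt hg hgf)]
  ring

include hf hff hg hgf in
theorem normRes_mul' (i : Bool) :
    normRes T L i (f * g) = normRes T L i f * normRes T L i g :=
  normRes_mul (vord_ordAt hf hff) (vord_ordAt hg hgf)

include hf hff in
theorem delta_inv : delta T L f⁻¹ = -delta T L f := by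
  simp only [delta, fun i => ordAt_eq (vord_ordAt (i := i) hf hff).inv]
  ring

include hf hff in
theorem normRes_inv' (i : Bool) : normRes T L i f⁻¹ = (normRes T L i f)⁻¹ :=
  normRes_inv (vord_ordAt hf hff)

include hf hff in
theorem delta_pow (m : ℕ) : delta T L (f ^ m) = m * delta T L f := by
  simp only [delta, ordAt_pow (vord_ordAt hf hff)]
  ring

include hf hff in
theorem normRes_pow' (i : Bool) (m : ℕ) : normRes T L i (f ^ m) = normRes T L i f ^ m :=
  normRes_pow (vord_ordAt hf hff) m

include hf hff in
theorem normRes_ne_zero' (i : Bool) : normRes T L i f ≠ 0 :=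
  normRes_ne_zero (vord_ordAt hf hff)

end Fixed

theorem vord_const {c : Qb} (hc : c ≠ 0) (hfix : ∀ σ ∈ L.H, σ c = c) :
    ∃ m : ℤ, ∀ i, T.VOrd L.π i (algebraMap Qb F c) m := by
  obtain ⟨m, hm⟩ := L.value c hc hfix
  exact ⟨m, fun i => T.vord_algebraMap hm⟩

theorem delta_const {c : Qb} (hc : c ≠ 0) (hfix : ∀ σ ∈ L.H, σ c = c) :
    delta T L (algebraMap Qb F c) = 0 := by
  obtain ⟨m, hm⟩ := vord_const (T := T) hc hfix
  simp [delta, ordAt_eq (hm true), ordAt_eq (hm false)]

/-- The normalised residue of a fixed constant is a constant. -/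
theorem exists_normRes_const {c : Qb} (hc : c ≠ 0) (hfix : ∀ σ ∈ L.H, σ c = c) (i : Bool) :
    ∃ d : ResidueField A, d ≠ 0 ∧
      normRes T L i (algebraMap Qb F c) = algebraMap (ResidueField A) Fb d := by
  obtain ⟨m, hm⟩ := vord_const (T := T) hc hfix
  have hne := normRes_ne_zero (hm i)
  rw [normRes_eq (hm i), ← map_mul] at hne ⊢
  have hmem : L.π ^ (-m) * c ∈ A := by
    rw [← T.algebraMap_mem_iff i, map_mul]
    exact T.mem_of_valuation_eq_one (vord_normalised (hm i)).valuation_eq_one
  rw [T.residueAt_algebraMap i hmem] at hne ⊢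
  exact ⟨_, fun h => hne (by rw [h, map_zero]), rfl⟩

end Fermat.Agent.BadPrime.Mazur.Local
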